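import Fermat.Agent.LR.PD94.CuspSystem
import Fermat.Prelude.Def_ModularCurve_PeriodMap

/-!
# P-LR (S41), Poincare duality leaf: invariance of the cusp sum under isomorphisms

`Γ`, `Γ'` are subgroups of finite index of `SL(2, ℤ)` containing `-1` and `E : Γ ≃* Γ'` is an
isomorphism which preserves the positive parabolic elements (for instance conjugation by
`diag (q, 1)`, `q > 0`).

* `h94lr_IsHeisHom.conj_eq`: a Heisenberg cochain of `(φ, ψ)` is invariant under conjugation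
  at the elements killed by `φ` and `ψ`;
* `h94lr_cuspMap_bijective`: `E` induces a bijection of the cusps, `E (cuspGen ω)` being
  conjugate in `Γ'` to `cuspGen (cuspMap ω)`;
* `h94lr_cuspSum_equiv`: `cuspSum Γ (c' ∘ E) = cuspSum Γ' c'` for every function `c'` which is
  conjugation invariant at the cusp generators;
* `h94lr_cuspSum_iso` (**ISO**): the same for the Heisenberg cochains of a pair of parabolic
  characters and `E γ = [[a, q b], [c / q, d]]`.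
-/

set_option autoImplicit false

open scoped MatrixGroups
open ModularGroup

namespace Fermat.Agent.LR.PD94

/-! ### Heisenberg cochains and conjugation -/

section Heis

variable {Γ : Subgroup SL(2, ℤ)} {A A' R : Type*} [AddCommGroup A] [AddCommGroup A']
  [AddCommGroup R] {μ : A →+ A' →+ R} {φ : Additive Γ →+ A} {ψ : Additive Γ →+ A'} {c : Γ → R}

theorem h94lr_hom_conj_eq {B : Type*} [AddCommGroup B] (χ : Additive Γ →+ B) (t δ : Γ) :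
    χ (Additive.ofMul (δ⁻¹ * t * δ)) = χ (Additive.ofMul t) := by
  rw [ofMul_mul, ofMul_mul, ofMul_inv, map_add, map_add, map_neg]
  abel

theorem h94lr_IsHeisHom.one (hc : h94lr_IsHeisHom Γ μ φ ψ c) : c 1 = 0 := by
  have h := hc 1 1
  rw [mul_one] at h
  have e1 : φ (Additive.ofMul (1 : Γ)) = 0 := map_zero φ
  rw [e1, map_zero, AddMonoidHom.zero_apply, add_zero] at h
  have h' : c 1 + 0 = c 1 + c 1 := by rw [add_zero]; exact h
  exact (add_left_cancel h').symm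

/-- a Heisenberg cochain of `(φ, ψ)` is invariant under conjugation at the elements killed by
`φ` and `ψ`. -/
theorem h94lr_IsHeisHom.conj_eq (hc : h94lr_IsHeisHom Γ μ φ ψ c) {t : Γ}
    (hφ : φ (Additive.ofMul t) = 0) (hψ : ψ (Additive.ofMul t) = 0) (δ : Γ) :
    c (δ⁻¹ * t * δ) = c t := by
  have h1 := hc δ (δ⁻¹ * t * δ)
  have h2 := hc t δ
  have e : δ * (δ⁻¹ * t * δ) = t * δ := by group
  rw [e, h2, h94lr_hom_conj_eq ψ t δ, hψ, hφ, map_zero, map_zero, AddMonoidHom.zero_apply,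
    add_zero, add_zero] at h1
  have h3 : c δ + c t = c δ + c (δ⁻¹ * t * δ) := by rw [← h1]; abel
  exact (add_left_cancel h3).symm

/-- a Heisenberg cochain at a power of an element killed by `φ` -/
theorem h94lr_IsHeisHom.pow_eq (hc : h94lr_IsHeisHom Γ μ φ ψ c) {t : Γ}
    (hφ : φ (Additive.ofMul t) = 0) (m : ℕ) : c (t ^ m) = m • c t := by
  induction m with
  | zero => rw [pow_zero, zero_smul]; exact hc.one
  | succ m ih =>
    have h := hc (t ^ m) t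
    have e : φ (Additive.ofMul (t ^ m)) = 0 := by
      rw [ofMul_pow, map_nsmul, hφ, smul_zero]
    rw [e, map_zero, AddMonoidHom.zero_apply, add_zero, ih] at h
    rw [pow_succ, h, succ_nsmul]

/-- transport of a Heisenberg cochain along a homomorphism of groups -/
theorem h94lr_IsHeisHom.comp {Γ₀ : Subgroup SL(2, ℤ)} (hc : h94lr_IsHeisHom Γ μ φ ψ c)
    (E : Γ₀ →* Γ) :
    h94lr_IsHeisHom Γ₀ μ (φ.comp (MonoidHom.toAdditive E)) (ψ.comp (MonoidHom.toAdditive E))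
      (fun γ => c (E γ)) := by
  intro γ γ'
  show c (E (γ * γ')) = c (E γ) + c (E γ') + μ (φ (Additive.ofMul (E γ)))
    (ψ (Additive.ofMul (E γ')))
  rw [map_mul]
  exact hc (E γ) (E γ')

end Heis

/-! ### the bijection of the cusps -/

section Equiv

variable (Γ Γ' : Subgroup SL(2, ℤ)) [Finite (SL(2, ℤ) ⧸ Γ)] [Finite (SL(2, ℤ) ⧸ Γ')]

/-- an isomorphism preserving the positive parabolic elements maps a cusp generator to a
conjugate of a cusp generator. -/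
theorem h94lr_exists_cusp_image (hΓ : (-1 : SL(2, ℤ)) ∈ Γ) (E : Γ ≃* Γ')
    (hE : ∀ t : Γ, h94lr_IsPosPar ((E t : Γ') : SL(2, ℤ)) ↔ h94lr_IsPosPar (t : SL(2, ℤ)))
    (ω : h94lr_Cusp Γ) :
    ∃ (ω' : h94lr_Cusp Γ') (δ : Γ'),
      E (h94lr_cuspGen Γ ω) = δ⁻¹ * h94lr_cuspGen Γ' ω' * δ := by
  obtain ⟨ω', m, δ, hm, h1⟩ := h94lr_exists_cusp_of_isPosPar Γ' (E (h94lr_cuspGen Γ ω))
    ((hE _).mpr (h94lr_isPosPar_cuspGen Γ ω))
  have hpp : h94lr_IsPosPar ((E.symm (h94lr_cuspGen Γ' ω') : Γ) : SL(2, ℤ)) := by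
    rw [← hE, MulEquiv.apply_symm_apply]
    exact h94lr_isPosPar_cuspGen Γ' ω'
  obtain ⟨ω'', m'', γ, hm'', h2⟩ := h94lr_exists_cusp_of_isPosPar Γ _ hpp
  -- back to `Γ`
  have h3 : h94lr_cuspGen Γ ω
      = (γ * E.symm δ)⁻¹ * h94lr_cuspGen Γ ω'' ^ (m'' * m) * (γ * E.symm δ) := by
    have e1 : h94lr_cuspGen Γ ω = E.symm (E (h94lr_cuspGen Γ ω)) :=
      (MulEquiv.symm_apply_apply E _).symm
    rw [e1, h1, map_mul, map_mul, map_inv, map_pow, h2, pow_mul]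
    have e2 : (γ⁻¹ * h94lr_cuspGen Γ ω'' ^ m'' * γ) ^ m
        = γ⁻¹ * (h94lr_cuspGen Γ ω'' ^ m'') ^ m * γ := by
      have h := conj_pow (i := m) (a := γ⁻¹) (b := h94lr_cuspGen Γ ω'' ^ m'')
      rw [inv_inv] at h
      exact h
    rw [e2]
    group
  have h4 : (γ * E.symm δ)⁻¹ * h94lr_cuspGen Γ ω'' ^ (m'' * m) * (γ * E.symm δ)
      = (1 : Γ)⁻¹ * h94lr_cuspGen Γ ω ^ 1 * 1 := by
    rw [← h3]; group
  obtain ⟨-, hmm⟩ := h94lr_cusp_unique Γ hΓ Nat.one_pos h4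
  have hm1 : m = 1 := Nat.eq_one_of_mul_eq_one_left hmm
  refine ⟨ω', δ, ?_⟩
  rw [h1, hm1, pow_one]

/-- the map of cusps induced by an isomorphism preserving the positive parabolic elements -/
noncomputable def h94lr_cuspMap (hΓ : (-1 : SL(2, ℤ)) ∈ Γ) (E : Γ ≃* Γ')
    (hE : ∀ t : Γ, h94lr_IsPosPar ((E t : Γ') : SL(2, ℤ)) ↔ h94lr_IsPosPar (t : SL(2, ℤ)))
    (ω : h94lr_Cusp Γ) : h94lr_Cusp Γ' :=
  (h94lr_exists_cusp_image Γ Γ' hΓ E hE ω).choose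

theorem h94lr_cuspMap_spec (hΓ : (-1 : SL(2, ℤ)) ∈ Γ) (E : Γ ≃* Γ')
    (hE : ∀ t : Γ, h94lr_IsPosPar ((E t : Γ') : SL(2, ℤ)) ↔ h94lr_IsPosPar (t : SL(2, ℤ)))
    (ω : h94lr_Cusp Γ) :
    ∃ δ : Γ', E (h94lr_cuspGen Γ ω)
      = δ⁻¹ * h94lr_cuspGen Γ' (h94lr_cuspMap Γ Γ' hΓ E hE ω) * δ :=
  (h94lr_exists_cusp_image Γ Γ' hΓ E hE ω).choose_spec

theorem h94lr_cuspMap_eq (hΓ : (-1 : SL(2, ℤ)) ∈ Γ) (hΓ' : (-1 : SL(2, ℤ)) ∈ Γ') (E : Γ ≃* Γ')
    (hE : ∀ t : Γ, h94lr_IsPosPar ((E t : Γ') : SL(2, ℤ)) ↔ h94lr_IsPosPar (t : SL(2, ℤ)))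
    {ω : h94lr_Cusp Γ} {ω' : h94lr_Cusp Γ'} {δ : Γ'}
    (h : E (h94lr_cuspGen Γ ω) = δ⁻¹ * h94lr_cuspGen Γ' ω' * δ) :
    h94lr_cuspMap Γ Γ' hΓ E hE ω = ω' := by
  obtain ⟨δ₀, h0⟩ := h94lr_cuspMap_spec Γ Γ' hΓ E hE ω
  have h1 : δ₀⁻¹ * h94lr_cuspGen Γ' (h94lr_cuspMap Γ Γ' hΓ E hE ω) ^ 1 * δ₀
      = δ⁻¹ * h94lr_cuspGen Γ' ω' ^ 1 * δ := by
    rw [pow_one, pow_one, ← h0, ← h]
  exact (h94lr_cusp_unique Γ' hΓ' Nat.one_pos h1).1

theorem h94lr_cuspMap_bijective (hΓ : (-1 : SL(2, ℤ)) ∈ Γ) (hΓ' : (-1 : SL(2, ℤ)) ∈ Γ')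
    (E : Γ ≃* Γ')
    (hE : ∀ t : Γ, h94lr_IsPosPar ((E t : Γ') : SL(2, ℤ)) ↔ h94lr_IsPosPar (t : SL(2, ℤ))) :
    Function.Bijective (h94lr_cuspMap Γ Γ' hΓ E hE) := by
  constructor
  · intro ω₁ ω₂ h12
    obtain ⟨δ₁, h1⟩ := h94lr_cuspMap_spec Γ Γ' hΓ E hE ω₁
    obtain ⟨δ₂, h2⟩ := h94lr_cuspMap_spec Γ Γ' hΓ E hE ω₂
    rw [h12] at h1
    have h3 : E (h94lr_cuspGen Γ ω₁)
        = (δ₂⁻¹ * δ₁)⁻¹ * E (h94lr_cuspGen Γ ω₂) * (δ₂⁻¹ * δ₁) := by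
      rw [h1, h2]; group
    have h4 : h94lr_cuspGen Γ ω₁
        = (E.symm (δ₂⁻¹ * δ₁))⁻¹ * h94lr_cuspGen Γ ω₂ * E.symm (δ₂⁻¹ * δ₁) := by
      apply E.injective
      rw [map_mul, map_mul, map_inv, MulEquiv.apply_symm_apply]
      exact h3
    have h5 : (1 : Γ)⁻¹ * h94lr_cuspGen Γ ω₁ ^ 1 * 1
        = (E.symm (δ₂⁻¹ * δ₁))⁻¹ * h94lr_cuspGen Γ ω₂ ^ 1 * E.symm (δ₂⁻¹ * δ₁) := by
      rw [pow_one, pow_one, ← h4]; group
    exact (h94lr_cusp_unique Γ hΓ Nat.one_pos h5).1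
  · intro ω'
    have hE' : ∀ t : Γ', h94lr_IsPosPar ((E.symm t : Γ) : SL(2, ℤ))
        ↔ h94lr_IsPosPar (t : SL(2, ℤ)) := by
      intro t
      rw [← hE, MulEquiv.apply_symm_apply]
    obtain ⟨ω, γ, h⟩ := h94lr_exists_cusp_image Γ' Γ hΓ' E.symm hE' ω'
    refine ⟨ω, ?_⟩
    apply h94lr_cuspMap_eq Γ Γ' hΓ hΓ' E hE (δ := (E γ)⁻¹)
    have h1 : h94lr_cuspGen Γ ω = γ * E.symm (h94lr_cuspGen Γ' ω') * γ⁻¹ := by
      rw [h]; group
    rw [h1, map_mul, map_mul, map_inv, MulEquiv.apply_symm_apply, inv_inv]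

end Equiv

/-! ### invariance of the cusp sum -/

section Sum

variable (Γ Γ' : Subgroup SL(2, ℤ)) [Fintype (SL(2, ℤ) ⧸ Γ)] [Fintype (SL(2, ℤ) ⧸ Γ')]
  {R : Type*} [AddCommGroup R]

/-- the cusp sum is invariant under an isomorphism preserving the positive parabolic elements,
for functions which are conjugation invariant at the cusp generators. -/
theorem h94lr_cuspSum_equiv (hΓ : (-1 : SL(2, ℤ)) ∈ Γ) (hΓ' : (-1 : SL(2, ℤ)) ∈ Γ')
    (E : Γ ≃* Γ')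
    (hE : ∀ t : Γ, h94lr_IsPosPar ((E t : Γ') : SL(2, ℤ)) ↔ h94lr_IsPosPar (t : SL(2, ℤ)))
    (c' : Γ' → R)
    (hc' : ∀ (ω' : h94lr_Cusp Γ') (δ : Γ'),
      c' (δ⁻¹ * h94lr_cuspGen Γ' ω' * δ) = c' (h94lr_cuspGen Γ' ω')) :
    h94lr_cuspSum Γ (fun γ => c' (E γ)) = h94lr_cuspSum Γ' c' := by
  rw [h94lr_cuspSum, h94lr_cuspSum]
  have h1 : ∀ ω : h94lr_Cusp Γ, c' (E (h94lr_cuspGen Γ ω))
      = c' (h94lr_cuspGen Γ' (h94lr_cuspMap Γ Γ' hΓ E hE ω)) := by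
    intro ω
    obtain ⟨δ, h⟩ := h94lr_cuspMap_spec Γ Γ' hΓ E hE ω
    rw [h, hc']
  rw [Finset.sum_congr rfl fun ω _ => h1 ω]
  exact Function.Bijective.sum_comp (h94lr_cuspMap_bijective Γ Γ' hΓ hΓ' E hE)
    (fun ω' => c' (h94lr_cuspGen Γ' ω'))

/-- conjugation by `diag (q, 1)`, `q > 0`, preserves the positive parabolic elements. -/
theorem h94lr_isPosPar_of_entries {q : ℤ} (hq : 0 < q) {t t' : SL(2, ℤ)}
    (h00 : t' 0 0 = t 0 0) (h01 : t' 0 1 = q * t 0 1) (h10 : q * t' 1 0 = t 1 0)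
    (h11 : t' 1 1 = t 1 1) : h94lr_IsPosPar t' ↔ h94lr_IsPosPar t := by
  have hone : t' = 1 ↔ t = 1 := by
    constructor
    · intro h
      rw [h] at h00 h01 h10 h11
      apply Subtype.ext
      ext i j
      fin_cases i <;> fin_cases j
      · show t 0 0 = 1
        rw [← h00]; rfl
      · show t 0 1 = 0
        have : q * t 0 1 = 0 := by rw [← h01]; rfl
        rcases mul_eq_zero.mp this with h | h
        · omega
        · exact h
      · show t 1 0 = 0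
        rw [← h10]
        show q * 0 = 0
        ring
      · show t 1 1 = 1
        rw [← h11]; rfl
    · intro h
      rw [h] at h00 h01 h10 h11
      apply Subtype.ext
      ext i j
      fin_cases i <;> fin_cases j
      · show t' 0 0 = 1
        rw [h00]; rfl
      · show t' 0 1 = 0
        rw [h01]
        show q * 0 = 0
        ring
      · show t' 1 0 = 0
        have : q * t' 1 0 = 0 := by rw [h10]; rfl
        rcases mul_eq_zero.mp this with h | h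
        · omega
        · exact h
      · show t' 1 1 = 1
        rw [h11]; rfl
  rw [h94lr_isPosPar_iff, h94lr_isPosPar_iff, h00, h11, h01]
  constructor
  · rintro ⟨h1, h2, h3, h4⟩
    refine ⟨h1, fun h => h2 (hone.mpr h), ?_, ?_⟩
    · exact (mul_nonneg_iff_of_pos_left hq).mp h3
    · rw [← h10]
      exact mul_nonpos_of_nonneg_of_nonpos hq.le h4
  · rintro ⟨h1, h2, h3, h4⟩
    refine ⟨h1, fun h => h2 (hone.mp h), ?_, ?_⟩
    · exact (mul_nonneg_iff_of_pos_left hq).mpr h3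
    · rw [← h10] at h4
      rcases le_or_gt (t' 1 0) 0 with hcon | hcon
      · exact hcon
      · have : 0 < q * t' 1 0 := mul_pos hq hcon
        omega

variable {A A' : Type*} [AddCommGroup A] [AddCommGroup A']

/-- **ISO**: the cusp sum of a Heisenberg cochain of a pair of parabolic characters is
invariant under conjugation by `diag (q, 1)`, `q > 0`. -/
theorem h94lr_cuspSum_iso (hΓ : (-1 : SL(2, ℤ)) ∈ Γ) (hΓ' : (-1 : SL(2, ℤ)) ∈ Γ')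
    {q : ℤ} (hq : 0 < q) (E : Γ ≃* Γ')
    (hE : ∀ γ : Γ, ((E γ : Γ') : SL(2, ℤ)) 0 0 = (γ : SL(2, ℤ)) 0 0 ∧
      ((E γ : Γ') : SL(2, ℤ)) 0 1 = q * (γ : SL(2, ℤ)) 0 1 ∧
      q * ((E γ : Γ') : SL(2, ℤ)) 1 0 = (γ : SL(2, ℤ)) 1 0 ∧
      ((E γ : Γ') : SL(2, ℤ)) 1 1 = (γ : SL(2, ℤ)) 1 1)
    (μ : A →+ A' →+ R) {φ' : Additive Γ' →+ A} {ψ' : Additive Γ' →+ A'}
    (hφ' : ModularCurve.Period.IsParabolicHom Γ' φ')
    (hψ' : ModularCurve.Period.IsParabolicHom Γ' ψ')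
    {c' : Γ' → R} (hc' : h94lr_IsHeisHom Γ' μ φ' ψ' c') :
    h94lr_cuspSum Γ (fun γ => c' (E γ)) = h94lr_cuspSum Γ' c' := by
  apply h94lr_cuspSum_equiv Γ Γ' hΓ hΓ' E
  · intro t
    obtain ⟨h00, h01, h10, h11⟩ := hE t
    exact h94lr_isPosPar_of_entries hq h00 h01 h10 h11
  · intro ω' δ
    have htr : (((h94lr_cuspGen Γ' ω' : Γ') : SL(2, ℤ)) : Matrix (Fin 2) (Fin 2) ℤ).trace ^ 2
        = 4 := by
      have h := ((h94lr_isPosPar_iff _).mp (h94lr_isPosPar_cuspGen Γ' ω')).1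
      rw [Matrix.trace_fin_two]
      have h' : (((h94lr_cuspGen Γ' ω' : Γ') : SL(2, ℤ)) : Matrix (Fin 2) (Fin 2) ℤ) 0 0
          + (((h94lr_cuspGen Γ' ω' : Γ') : SL(2, ℤ)) : Matrix (Fin 2) (Fin 2) ℤ) 1 1 = 2 := h
      rw [h']; norm_num
    exact hc'.conj_eq (hφ' _ htr) (hψ' _ htr) δ

end Sum

end Fermat.Agent.LR.PD94
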