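import Fermat.Agent.LR.PD.Defs
import Fermat.Agent.LR.PD94.Conj

/-!
# P-LR / PD, leaf PD-ISO (helper94)

`h94lr_iso : h1pd_IsoStatement`: the cusp sum of a Heisenberg cochain of a pair of parabolic
characters is invariant under conjugation by `diag(q, 1)`.
-/

set_option autoImplicit false

open scoped MatrixGroups
open ModularGroup

namespace Fermat.Agent.LR.PD94

/-- **PD-ISO**. -/
theorem h94lr_iso : Fermat.Agent.LR.PD.h1pd_IsoStatement := by
  intro q hq Γ Γ' _ _ hΓ hΓ' E hE φ' ψ' c' hφ' hψ' hc'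
  have hq' : (0 : ℤ) < (q : ℤ) := by exact_mod_cast hq
  exact (h94lr_cuspSum_iso Γ Γ' hΓ hΓ' hq' E hE (AddMonoidHom.mul (R := ℤ)) hφ' hψ' hc').symm

end Fermat.Agent.LR.PD94
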