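import Mathlib

/-!
# P-LR (S41), Poincare duality leaf: sums over the cycles of a permutation

For a permutation `τ` of a finite type `X` we choose a representative `h94lr_rep τ ω` of every
cycle `ω : h94lr_Orb τ`, of length `h94lr_width τ ω`, and prove

  `∑ x, f x = ∑ ω, ∑ k ∈ range (width ω), f ((τ ^ k) (rep ω))`     (`h94lr_sum_orbits`).
-/

set_option autoImplicit false

namespace Fermat.Agent.LR.PD94

section Orbit

variable {X : Type*} (τ : Equiv.Perm X)

/-- the set of cycles of `τ` -/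
abbrev h94lr_Orb : Type _ := Quotient (Equiv.Perm.SameCycle.setoid τ)

noncomputable instance h94lr_instFintypeOrb [Finite X] : Fintype (h94lr_Orb τ) :=
  Fintype.ofFinite _

/-- the chosen representative of a cycle -/
noncomputable def h94lr_rep (ω : h94lr_Orb τ) : X := Quotient.out ω

/-- the length of a cycle -/
noncomputable def h94lr_width (ω : h94lr_Orb τ) : ℕ := Function.minimalPeriod τ (h94lr_rep τ ω)

theorem h94lr_mk_rep (ω : h94lr_Orb τ) :
    (Quotient.mk (Equiv.Perm.SameCycle.setoid τ) (h94lr_rep τ ω) : h94lr_Orb τ) = ω :=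
  Quotient.out_eq ω

theorem h94lr_sameCycle_rep (x : X) :
    Equiv.Perm.SameCycle τ
      (h94lr_rep τ (Quotient.mk (Equiv.Perm.SameCycle.setoid τ) x)) x :=
  Quotient.exact (Quotient.out_eq (Quotient.mk (Equiv.Perm.SameCycle.setoid τ) x))

theorem h94lr_width_pos [Finite X] (ω : h94lr_Orb τ) : 0 < h94lr_width τ ω :=
  Function.minimalPeriod_pos_of_mem_periodicPts
    (Function.Injective.mem_periodicPts τ.injective _)

theorem h94lr_pow_width (ω : h94lr_Orb τ) :
    (τ ^ h94lr_width τ ω) (h94lr_rep τ ω) = h94lr_rep τ ω := by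
  have h := Function.isPeriodicPt_minimalPeriod τ (h94lr_rep τ ω)
  rw [Function.IsPeriodicPt, Function.IsFixedPt, Equiv.Perm.iterate_eq_pow] at h
  exact h

theorem h94lr_pow_rep_mk (ω : h94lr_Orb τ) (k : ℕ) :
    (Quotient.mk (Equiv.Perm.SameCycle.setoid τ) ((τ ^ k) (h94lr_rep τ ω)) : h94lr_Orb τ) = ω := by
  rw [← h94lr_mk_rep τ ω]
  apply Quotient.sound
  show Equiv.Perm.SameCycle τ ((τ ^ k) (h94lr_rep τ _)) (h94lr_rep τ _)
  rw [h94lr_mk_rep]
  exact (Equiv.Perm.sameCycle_pow_left).2 (Equiv.Perm.SameCycle.refl τ _)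

/-- **sum over the cycles.** -/
theorem h94lr_sum_orbits [Fintype X] {A : Type*} [AddCommMonoid A] (f : X → A) :
    ∑ x, f x = ∑ ω : h94lr_Orb τ, ∑ k ∈ Finset.range (h94lr_width τ ω),
      f ((τ ^ k) (h94lr_rep τ ω)) := by
  classical
  rw [Finset.sum_sigma' (Finset.univ : Finset (h94lr_Orb τ))
    (fun ω => Finset.range (h94lr_width τ ω)) (fun ω k => f ((τ ^ k) (h94lr_rep τ ω)))]
  symm
  refine Finset.sum_bij (fun p _ => (τ ^ p.2) (h94lr_rep τ p.1)) (fun _ _ => Finset.mem_univ _)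
    ?_ ?_ (fun _ _ => rfl)
  · -- injectivity
    rintro ⟨ω, k⟩ hk ⟨ω', k'⟩ hk' h
    simp only [Finset.mem_sigma, Finset.mem_univ, Finset.mem_range, true_and] at hk hk'
    have h' : (τ ^ k) (h94lr_rep τ ω) = (τ ^ k') (h94lr_rep τ ω') := h
    have hω : ω = ω' := by
      rw [← h94lr_pow_rep_mk τ ω k, ← h94lr_pow_rep_mk τ ω' k', h']
    subst hω
    have hkk : k = k' := by
      have h2 : (τ : X → X)^[k] (h94lr_rep τ ω) = (τ : X → X)^[k'] (h94lr_rep τ ω) := by
        rw [Equiv.Perm.iterate_eq_pow, Equiv.Perm.iterate_eq_pow]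
        exact h'
      exact (Function.iterate_eq_iterate_iff_of_lt_minimalPeriod hk hk').1 h2
    subst hkk
    rfl
  · -- surjectivity
    intro y _
    obtain ⟨j, hj⟩ := (h94lr_sameCycle_rep τ y).exists_nat_pow_eq
    set ω : h94lr_Orb τ := Quotient.mk (Equiv.Perm.SameCycle.setoid τ) y with hω
    refine ⟨⟨ω, j % h94lr_width τ ω⟩, ?_, ?_⟩
    · simp only [Finset.mem_sigma, Finset.mem_univ, Finset.mem_range, true_and]
      exact Nat.mod_lt _ (h94lr_width_pos τ ω)
    · show (τ ^ (j % h94lr_width τ ω)) (h94lr_rep τ ω) = y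
      rw [← hj, ← Equiv.Perm.iterate_eq_pow, ← Equiv.Perm.iterate_eq_pow]
      exact Function.iterate_mod_minimalPeriod_eq

end Orbit

end Fermat.Agent.LR.PD94
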