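import Fermat.Agent.LR.PD94.HeisHom
import Fermat.Agent.LR.PD94.Orbit

/-!
# P-LR (S41), Poincare duality leaf: the cusp family, the surface relation, the cusp sum

`Γ` is a subgroup of finite index of `SL(2, ℤ)` containing `-1`, `X = SL(2, ℤ) ⧸ Γ`.

* `h94lr_Cusp Γ`: the set of cusps (= cycles of `T⁻¹` on `X`), `h94lr_cuspGen Γ ω : Γ` the
  positive primitive parabolic generator `r⁻¹ T ^ w r` attached to the chosen representative.
* `h94lr_sum_apply_T`: `∑ x, κ T x = 0` for every cocycle `κ` vanishing at `-1` with values in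
  a group without `2`- and `3`-torsion;
* `h94lr_surface`: **surface relation** `∑ ω, χ (cuspGen ω) = 0` for every character `χ` of `Γ`;
* `h94lr_cuspSum Γ c = ∑ ω, c (cuspGen ω)` and `h94lr_cuspSum_indep`: the cusp sum of a
  Heisenberg cochain of `(φ, ψ)` does not depend on the cochain.
-/

set_option autoImplicit false

open scoped MatrixGroups
open ModularGroup

namespace Fermat.Agent.LR.PD94

open Fermat.Agent.S16.Coh

/-! ### the model form of the surface relation -/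

section Model

variable {X : Type*} [MulAction SL(2, ℤ) X] [Fintype X] {A : Type*} [AddCommGroup A]

theorem h94lr_sum_smul (g : SL(2, ℤ)) (f : X → A) : ∑ x, f (g • x) = ∑ x, f x :=
  Equiv.sum_comp (MulAction.toPerm g) f

/-- `∑ x, κ T x = 0`. -/
theorem h94lr_sum_apply_T (hneg : ∀ x : X, (-1 : SL(2, ℤ)) • x = x)
    (h2 : ∀ a : A, a + a = 0 → a = 0) (h3 : ∀ a : A, a + a + a = 0 → a = 0)
    {κ : SL(2, ℤ) → X → A} (hκ : h94_IsCocycle κ) (h1 : ∀ x, κ (-1) x = 0) :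
    ∑ x, κ T x = 0 := by
  have hS : ∑ x, κ S x = 0 := by
    apply h2
    have e : ∑ x, κ S x + ∑ x, κ S x = ∑ x, (κ S x + κ S ((S : SL(2, ℤ)) • x)) := by
      rw [Finset.sum_add_distrib, h94lr_sum_smul S (κ S)]
    rw [e]
    exact Finset.sum_eq_zero fun x _ => h94lr_S_rel_of_neg_one hneg hκ h1 x
  have hU : ∑ x, κ (S * T) x = 0 := by
    apply h3
    have e1 : ∑ x, κ (S * T) x = ∑ x, κ (S * T) (((S : SL(2, ℤ)) * T)⁻¹ • x) :=
      (h94lr_sum_smul _ (κ (S * T))).symm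
    have e2 : ∑ x, κ (S * T) x
        = ∑ x, κ (S * T) (((S : SL(2, ℤ)) * T)⁻¹ • (((S : SL(2, ℤ)) * T)⁻¹ • x)) := by
      rw [h94lr_sum_smul (((S : SL(2, ℤ)) * T)⁻¹)
        (fun x => κ (S * T) (((S : SL(2, ℤ)) * T)⁻¹ • x)), ← e1]
    have e3 : ∑ x, κ (S * T) x + ∑ x, κ (S * T) x + ∑ x, κ (S * T) x
        = ∑ x, (κ (S * T) x + κ (S * T) (((S : SL(2, ℤ)) * T)⁻¹ • x)
          + κ (S * T) (((S : SL(2, ℤ)) * T)⁻¹ • (((S : SL(2, ℤ)) * T)⁻¹ • x))) := by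
      rw [Finset.sum_add_distrib, Finset.sum_add_distrib, ← e1, ← e2]
    rw [e3]
    exact Finset.sum_eq_zero fun x _ => h94lr_U_rel_of_neg_one hκ h1 x
  have e : ∑ x, κ T x
      = ∑ x, (κ (S * T) ((S : SL(2, ℤ)) • x) - κ S ((S : SL(2, ℤ)) • x)) :=
    Finset.sum_congr rfl fun x _ => hκ.apply_T x
  rw [e, Finset.sum_sub_distrib, h94lr_sum_smul S (κ (S * T)), h94lr_sum_smul S (κ S), hS, hU,
    sub_self]

end Model

/-! ### the cusp family -/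

section Cusp

variable (Γ : Subgroup SL(2, ℤ))

/-- the permutation `x ↦ T⁻¹ x` of `SL(2, ℤ) ⧸ Γ`. -/
noncomputable def h94lr_tau : Equiv.Perm (SL(2, ℤ) ⧸ Γ) := MulAction.toPerm ((T : SL(2, ℤ))⁻¹)

theorem h94lr_tau_pow_apply (k : ℕ) (x : SL(2, ℤ) ⧸ Γ) :
    (h94lr_tau Γ ^ k) x = ((T : SL(2, ℤ)) ^ k)⁻¹ • x := by
  have h : h94lr_tau Γ ^ k = MulAction.toPerm (((T : SL(2, ℤ)) ^ k)⁻¹) := by
    rw [h94lr_tau, ← inv_pow]
    exact (map_pow (MulAction.toPermHom SL(2, ℤ) (SL(2, ℤ) ⧸ Γ)) _ k).symm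
  rw [h]
  rfl

/-- the set of cusps of `Γ` -/
abbrev h94lr_Cusp : Type := h94lr_Orb (h94lr_tau Γ)

/-- the chosen point of `SL(2, ℤ) ⧸ Γ` over a cusp -/
noncomputable def h94lr_cuspPt (ω : h94lr_Cusp Γ) : SL(2, ℤ) ⧸ Γ := h94lr_rep (h94lr_tau Γ) ω

/-- the width of a cusp -/
noncomputable def h94lr_cuspWidth (ω : h94lr_Cusp Γ) : ℕ := h94lr_width (h94lr_tau Γ) ω

theorem h94lr_cuspWidth_pos [Finite (SL(2, ℤ) ⧸ Γ)] (ω : h94lr_Cusp Γ) :
    0 < h94lr_cuspWidth Γ ω :=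
  h94lr_width_pos _ ω

theorem h94lr_T_pow_width_smul (ω : h94lr_Cusp Γ) :
    ((T : SL(2, ℤ)) ^ h94lr_cuspWidth Γ ω) • h94lr_cuspPt Γ ω = h94lr_cuspPt Γ ω := by
  have h := h94lr_pow_width (h94lr_tau Γ) ω
  rw [h94lr_tau_pow_apply, inv_smul_eq_iff] at h
  exact h.symm

/-- the generator `r⁻¹ T ^ w r` of the stabiliser of a cusp, as an element of `SL(2, ℤ)` -/
noncomputable def h94lr_cuspMat (ω : h94lr_Cusp Γ) : SL(2, ℤ) :=
  (Quotient.out (h94lr_cuspPt Γ ω))⁻¹ * (T : SL(2, ℤ)) ^ h94lr_cuspWidth Γ ω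
    * Quotient.out (h94lr_cuspPt Γ ω)

theorem h94lr_cuspMat_mem (ω : h94lr_Cusp Γ) : h94lr_cuspMat Γ ω ∈ Γ :=
  Fermat.Agent.S21.H.conj_out_mem Γ (h94lr_T_pow_width_smul Γ ω)

/-- the generator of the stabiliser of a cusp -/
noncomputable def h94lr_cuspGen (ω : h94lr_Cusp Γ) : Γ :=
  ⟨h94lr_cuspMat Γ ω, h94lr_cuspMat_mem Γ ω⟩

variable {A : Type*} [AddCommGroup A]

/-- a character at a cusp generator, in terms of its Shapiro cocycle -/
theorem h94lr_hom_cuspGen (χ : Additive Γ →+ A) (ω : h94lr_Cusp Γ) :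
    χ (Additive.ofMul (h94lr_cuspGen Γ ω))
      = ∑ k ∈ Finset.range (h94lr_cuspWidth Γ ω),
          h94lr_shap Γ χ T ((h94lr_tau Γ ^ k) (h94lr_cuspPt Γ ω)) := by
  have h1 := h94lr_shap_of_fix Γ χ _ _ (h94lr_T_pow_width_smul Γ ω)
  have h2 := (h94lr_shap_isCocycle Γ χ).apply_T_pow (h94lr_cuspWidth Γ ω) (h94lr_cuspPt Γ ω)
  rw [h1] at h2
  rw [show h94lr_cuspGen Γ ω = ⟨_, Fermat.Agent.S21.H.conj_out_mem Γ
    (h94lr_T_pow_width_smul Γ ω)⟩ from rfl, h2]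
  exact Finset.sum_congr rfl fun k _ => by rw [h94lr_tau_pow_apply]

/-- **the surface relation**: the sum of the values of a character at the cusp generators
vanishes. -/
theorem h94lr_surface [Fintype (SL(2, ℤ) ⧸ Γ)] (hΓ : (-1 : SL(2, ℤ)) ∈ Γ)
    (h2 : ∀ a : A, a + a = 0 → a = 0) (h3 : ∀ a : A, a + a + a = 0 → a = 0)
    (χ : Additive Γ →+ A) :
    ∑ ω : h94lr_Cusp Γ, χ (Additive.ofMul (h94lr_cuspGen Γ ω)) = 0 := by
  have h := h94lr_sum_orbits (h94lr_tau Γ) (h94lr_shap Γ χ T)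
  have h0 := h94lr_sum_apply_T (h94lr_neg_one_smul Γ hΓ) h2 h3 (h94lr_shap_isCocycle Γ χ)
    (h94lr_shap_neg_one Γ hΓ χ (h94lr_hom_neg_one Γ hΓ h2 χ))
  rw [h] at h0
  rw [← h0]
  exact Finset.sum_congr rfl fun ω _ => h94lr_hom_cuspGen Γ χ ω

/-! ### the cusp sum of a Heisenberg cochain -/

/-- the sum of a function on `Γ` over the cusp generators -/
noncomputable def h94lr_cuspSum [Fintype (SL(2, ℤ) ⧸ Γ)] (c : Γ → A) : A :=
  ∑ ω : h94lr_Cusp Γ, c (h94lr_cuspGen Γ ω)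

variable {A' R : Type*} [AddCommGroup A'] [AddCommGroup R] (μ : A →+ A' →+ R)

/-- Heisenberg cochains of a pair of characters -/
def h94lr_IsHeisHom (φ : Additive Γ →+ A) (ψ : Additive Γ →+ A') (c : Γ → R) : Prop :=
  ∀ γ γ' : Γ, c (γ * γ') = c γ + c γ' + μ (φ (Additive.ofMul γ)) (ψ (Additive.ofMul γ'))

/-- **independence**: the cusp sum of a Heisenberg cochain of `(φ, ψ)` depends only on
`(φ, ψ)`. -/
theorem h94lr_cuspSum_indep [Fintype (SL(2, ℤ) ⧸ Γ)] (hΓ : (-1 : SL(2, ℤ)) ∈ Γ)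
    (h2 : ∀ a : R, a + a = 0 → a = 0) (h3 : ∀ a : R, a + a + a = 0 → a = 0)
    {φ : Additive Γ →+ A} {ψ : Additive Γ →+ A'} {c c' : Γ → R}
    (hc : h94lr_IsHeisHom Γ μ φ ψ c) (hc' : h94lr_IsHeisHom Γ μ φ ψ c') :
    h94lr_cuspSum Γ c = h94lr_cuspSum Γ c' := by
  -- the difference is a character
  have hadd : ∀ γ γ' : Γ, c (γ * γ') - c' (γ * γ') = (c γ - c' γ) + (c γ' - c' γ') := by
    intro γ γ'
    rw [hc γ γ', hc' γ γ']
    abel
  have h1 : c 1 - c' 1 = 0 := by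
    have := hadd 1 1
    rw [mul_one] at this
    have h : (c 1 - c' 1) + 0 = (c 1 - c' 1) + (c 1 - c' 1) := by rw [add_zero]; exact this
    exact (add_left_cancel h).symm
  let χ : Additive Γ →+ R :=
    { toFun := fun γ => c (Additive.toMul γ) - c' (Additive.toMul γ)
      map_zero' := h1
      map_add' := fun γ γ' => hadd (Additive.toMul γ) (Additive.toMul γ') }
  have h := h94lr_surface Γ hΓ h2 h3 χ
  have e : ∑ ω : h94lr_Cusp Γ, χ (Additive.ofMul (h94lr_cuspGen Γ ω))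
      = h94lr_cuspSum Γ c - h94lr_cuspSum Γ c' := by
    rw [h94lr_cuspSum, h94lr_cuspSum, ← Finset.sum_sub_distrib]
    rfl
  rw [e] at h
  exact sub_eq_zero.mp h

end Cusp

end Fermat.Agent.LR.PD94
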