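import Mathlib

/-!
# P-LR (S41), Poincare duality leaf: positive parabolic elements of `SL(2, ℤ)`

* `h94lr_IsPosPar t`: `t` is conjugate in `SL(2, ℤ)` to `T ^ k` with `k ≥ 1`;
* `h94lr_isPosPar_iff`: `t` is positive parabolic iff `trace t = 2`, `t ≠ 1`,
  `0 ≤ t 0 1` and `t 1 0 ≤ 0` (a criterion which is visibly invariant under conjugation by
  `diag (q, 1)`, `q > 0`);
* `h94lr_normalizer_T`: `h T ^ k = T ^ k' h` with `k' ≠ 0` forces `k = k'` and `h = ± T ^ j`.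
-/

set_option autoImplicit false

open scoped MatrixGroups
open ModularGroup

namespace Fermat.Agent.LR.PD94

theorem h94lr_det_eq (a : SL(2, ℤ)) : a 0 0 * a 1 1 - a 0 1 * a 1 0 = 1 := by
  have := a.det_coe
  rw [Matrix.det_fin_two] at this
  exact this

theorem h94lr_coe_inv (a : SL(2, ℤ)) :
    ((a⁻¹ : SL(2, ℤ)) : Matrix (Fin 2) (Fin 2) ℤ) = !![a 1 1, -a 0 1; -a 1 0, a 0 0] := by
  rw [Matrix.SpecialLinearGroup.coe_inv, Matrix.adjugate_fin_two]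

/-- the entries of `a⁻¹ T ^ k a` -/
theorem h94lr_conj_T_zpow_entries (a : SL(2, ℤ)) (k : ℤ) :
    (a⁻¹ * T ^ k * a) 0 0 = 1 + k * a 1 0 * a 1 1 ∧
    (a⁻¹ * T ^ k * a) 0 1 = k * a 1 1 ^ 2 ∧
    (a⁻¹ * T ^ k * a) 1 0 = -(k * a 1 0 ^ 2) ∧
    (a⁻¹ * T ^ k * a) 1 1 = 1 - k * a 1 0 * a 1 1 := by
  have hdet := h94lr_det_eq a
  have hT : ((T ^ k : SL(2, ℤ)) : Matrix (Fin 2) (Fin 2) ℤ) = !![1, k; 0, 1] := coe_T_zpow k
  refine ⟨?_, ?_, ?_, ?_⟩
  all_goals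
    show ((a⁻¹ * T ^ k * a : SL(2, ℤ)) : Matrix (Fin 2) (Fin 2) ℤ) _ _ = _
    rw [Matrix.SpecialLinearGroup.coe_mul, Matrix.SpecialLinearGroup.coe_mul, h94lr_coe_inv, hT]
    simp only [Matrix.mul_apply, Fin.sum_univ_two, Matrix.of_apply, Matrix.cons_val_zero,
      Matrix.cons_val_one, Matrix.cons_val', Matrix.empty_val', Matrix.cons_val_fin_one]
  · linear_combination hdet
  · linear_combination (0 : ℤ) * hdet
  · linear_combination (0 : ℤ) * hdet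
  · linear_combination hdet

/-- positive parabolic elements of `SL(2, ℤ)`: the conjugates of `T ^ k`, `k ≥ 1`. -/
def h94lr_IsPosPar (t : SL(2, ℤ)) : Prop :=
  ∃ a : SL(2, ℤ), ∃ k : ℕ, 0 < k ∧ t = a⁻¹ * T ^ k * a

/-- an element of trace `2` is conjugate to a power of `T`. -/
theorem h94lr_exists_conj_T (t : SL(2, ℤ)) (htr : t 0 0 + t 1 1 = 2) :
    ∃ (δ : SL(2, ℤ)) (n : ℤ), δ⁻¹ * t * δ = T ^ n := by
  have hdet := h94lr_det_eq t
  -- a primitive fixed vector `(p, q)`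
  obtain ⟨p, q, hcop, e1, e2⟩ : ∃ p q : ℤ, IsCoprime p q ∧ t 0 0 * p + t 0 1 * q = p ∧
      t 1 0 * p + t 1 1 * q = q := by
    by_cases hc : t 1 0 = 0
    · refine ⟨1, 0, isCoprime_one_left, ?_, ?_⟩
      · have h1 : (t 0 0 - 1) * (t 0 0 - 1) = 0 := by
          rw [hc] at hdet
          linear_combination (-1 : ℤ) * hdet + t 0 0 * htr
        have h2 : t 0 0 - 1 = 0 := by
          rcases mul_eq_zero.mp h1 with h | h <;> exact h
        linear_combination h2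
      · rw [hc]; ring
    · obtain ⟨x, hx⟩ : ∃ x : ℤ, x = 1 - t 1 1 := ⟨_, rfl⟩
      obtain ⟨y, hy⟩ : ∃ y : ℤ, y = t 1 0 := ⟨_, rfl⟩
      have hy0 : y ≠ 0 := by rw [hy]; exact hc
      have hgpos : 0 < Int.gcd x y := Int.gcd_pos_of_ne_zero_right x hy0
      have hg0 : (Int.gcd x y : ℤ) ≠ 0 := by exact_mod_cast hgpos.ne'
      obtain ⟨p, hp⟩ : ∃ p : ℤ, p = x / (Int.gcd x y : ℤ) := ⟨_, rfl⟩
      obtain ⟨q, hq⟩ : ∃ q : ℤ, q = y / (Int.gcd x y : ℤ) := ⟨_, rfl⟩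
      obtain ⟨g, hg⟩ : ∃ g : ℤ, g = (Int.gcd x y : ℤ) := ⟨_, rfl⟩
      have hg0' : g ≠ 0 := by rw [hg]; exact hg0
      have hxp : x = g * p := by
        rw [hg, hp, Int.mul_ediv_cancel' (Int.gcd_dvd_left x y)]
      have hyq : y = g * q := by
        rw [hg, hq, Int.mul_ediv_cancel' (Int.gcd_dvd_right x y)]
      have hcop : IsCoprime p q := by
        rw [Int.isCoprime_iff_gcd_eq_one, hp, hq]
        exact Int.gcd_div_gcd_div_gcd hgpos
      have f1 : t 0 0 * x + t 0 1 * y = x := by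
        rw [hx, hy]
        linear_combination htr - hdet
      have f2 : t 1 0 * x + t 1 1 * y = y := by
        rw [hx, hy]; ring
      refine ⟨p, q, hcop, ?_, ?_⟩
      · apply mul_left_cancel₀ hg0'
        rw [hxp, hyq] at f1
        linear_combination f1
      · apply mul_left_cancel₀ hg0'
        rw [hxp, hyq] at f2
        linear_combination f2
  obtain ⟨δ, hδ0, hδ1⟩ := hcop.exists_SL2_col 0
  have hδ0' : (δ : Matrix (Fin 2) (Fin 2) ℤ) 0 0 = p := hδ0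
  have hδ1' : (δ : Matrix (Fin 2) (Fin 2) ℤ) 1 0 = q := hδ1
  have hdδ := h94lr_det_eq δ
  have hdδ' : p * (δ : Matrix (Fin 2) (Fin 2) ℤ) 1 1 - (δ : Matrix (Fin 2) (Fin 2) ℤ) 0 1 * q
      = 1 := by
    rw [← hδ0', ← hδ1']; exact hdδ
  have h00 : (δ⁻¹ * t * δ) 0 0 = 1 := by
    show ((δ⁻¹ * t * δ : SL(2, ℤ)) : Matrix (Fin 2) (Fin 2) ℤ) 0 0 = 1
    rw [Matrix.SpecialLinearGroup.coe_mul, Matrix.SpecialLinearGroup.coe_mul, h94lr_coe_inv]
    simp only [Matrix.mul_apply, Fin.sum_univ_two, Matrix.of_apply, Matrix.cons_val_zero,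
      Matrix.cons_val_one, Matrix.cons_val', Matrix.empty_val', Matrix.cons_val_fin_one]
    rw [hδ0', hδ1']
    linear_combination (δ : Matrix (Fin 2) (Fin 2) ℤ) 1 1 * e1
      - (δ : Matrix (Fin 2) (Fin 2) ℤ) 0 1 * e2 + hdδ'
  have h10 : (δ⁻¹ * t * δ) 1 0 = 0 := by
    show ((δ⁻¹ * t * δ : SL(2, ℤ)) : Matrix (Fin 2) (Fin 2) ℤ) 1 0 = 0
    rw [Matrix.SpecialLinearGroup.coe_mul, Matrix.SpecialLinearGroup.coe_mul, h94lr_coe_inv]
    simp only [Matrix.mul_apply, Fin.sum_univ_two, Matrix.of_apply, Matrix.cons_val_zero,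
      Matrix.cons_val_one, Matrix.cons_val', Matrix.empty_val', Matrix.cons_val_fin_one]
    rw [hδ0', hδ1']
    linear_combination p * e2 - q * e1
  have h11 : (δ⁻¹ * t * δ) 1 1 = 1 := by
    have h := h94lr_det_eq (δ⁻¹ * t * δ)
    rw [h00, h10] at h
    linear_combination h
  refine ⟨δ, (δ⁻¹ * t * δ) 0 1, ?_⟩
  apply Subtype.ext
  rw [coe_T_zpow]
  ext i j
  fin_cases i <;> fin_cases j
  · exact h00
  · rfl
  · exact h10
  · exact h11

theorem h94lr_T_zpow_ne_one {n : ℤ} (hn : n ≠ 0) : (T : SL(2, ℤ)) ^ n ≠ 1 := by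
  intro h
  have h1 : ((T ^ n : SL(2, ℤ)) : Matrix (Fin 2) (Fin 2) ℤ) 0 1 = n := by
    rw [coe_T_zpow]; rfl
  rw [h] at h1
  exact hn (by simpa using h1.symm)

/-- **the criterion**: an element of `SL(2, ℤ)` is positive parabolic iff it has trace `2`, is
not `1`, and its upper right entry is `≥ 0`, its lower left entry `≤ 0`. -/
theorem h94lr_isPosPar_iff (t : SL(2, ℤ)) :
    h94lr_IsPosPar t ↔ (t 0 0 + t 1 1 = 2 ∧ t ≠ 1 ∧ 0 ≤ t 0 1 ∧ t 1 0 ≤ 0) := by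
  constructor
  · rintro ⟨a, k, hk, rfl⟩
    have hk' : (0 : ℤ) < (k : ℤ) := by exact_mod_cast hk
    obtain ⟨h00, h01, h10, h11⟩ := h94lr_conj_T_zpow_entries a (k : ℤ)
    rw [zpow_natCast] at h00 h01 h10 h11
    refine ⟨by rw [h00, h11]; ring, ?_, by rw [h01]; positivity, by rw [h10]; nlinarith [sq_nonneg (a 1 0)]⟩
    intro h
    have h' : (T : SL(2, ℤ)) ^ (k : ℤ) = 1 := by
      rw [zpow_natCast]
      have := congrArg (fun g => a * g * a⁻¹) h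
      simpa [mul_assoc] using this
    exact h94lr_T_zpow_ne_one hk'.ne' h'
  · rintro ⟨htr, hne, h01, h10⟩
    obtain ⟨δ, n, hδ⟩ := h94lr_exists_conj_T t htr
    have ht : t = (δ⁻¹)⁻¹ * T ^ n * δ⁻¹ := by
      rw [← hδ]; group
    have hn0 : n ≠ 0 := by
      rintro rfl
      apply hne
      rw [ht]; simp
    obtain ⟨-, e01, e10, -⟩ := h94lr_conj_T_zpow_entries δ⁻¹ n
    rw [← ht] at e01 e10
    rcases lt_or_gt_of_ne hn0 with hn | hn
    · exfalso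
      -- both entries of the second row of `δ⁻¹` vanish
      have hd := h94lr_det_eq δ⁻¹
      have h1 : (δ⁻¹ : SL(2, ℤ)) 1 1 ^ 2 = 0 := by
        have : n * (δ⁻¹ : SL(2, ℤ)) 1 1 ^ 2 ≥ 0 := by rw [← e01]; exact h01
        nlinarith [sq_nonneg ((δ⁻¹ : SL(2, ℤ)) 1 1)]
      have h2 : (δ⁻¹ : SL(2, ℤ)) 1 0 ^ 2 = 0 := by
        have : -(n * (δ⁻¹ : SL(2, ℤ)) 1 0 ^ 2) ≤ 0 := by rw [← e10]; exact h10
        nlinarith [sq_nonneg ((δ⁻¹ : SL(2, ℤ)) 1 0)]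
      have h1' : (δ⁻¹ : SL(2, ℤ)) 1 1 = 0 := by simpa using h1
      have h2' : (δ⁻¹ : SL(2, ℤ)) 1 0 = 0 := by simpa using h2
      rw [h1', h2'] at hd
      simp at hd
    · refine ⟨δ⁻¹, n.toNat, ?_, ?_⟩
      · omega
      · rw [ht]
        congr 2
        rw [← zpow_natCast, Int.toNat_of_nonneg hn.le]

/-- the normaliser of the powers of `T`: `h T ^ k = T ^ k' h` with `k' ≠ 0` forces `k = k'`
and `h = ± T ^ j`. -/
theorem h94lr_normalizer_T (h : SL(2, ℤ)) (k k' : ℤ) (hk' : k' ≠ 0)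
    (hh : h * T ^ k = T ^ k' * h) :
    k = k' ∧ ∃ j : ℤ, h = T ^ j ∨ h = -T ^ j := by
  have hd := h94lr_det_eq h
  have hT : ((T ^ k : SL(2, ℤ)) : Matrix (Fin 2) (Fin 2) ℤ) = !![1, k; 0, 1] := coe_T_zpow k
  have hT' : ((T ^ k' : SL(2, ℤ)) : Matrix (Fin 2) (Fin 2) ℤ) = !![1, k'; 0, 1] := coe_T_zpow k'
  have hm : ((h * T ^ k : SL(2, ℤ)) : Matrix (Fin 2) (Fin 2) ℤ)
      = ((T ^ k' * h : SL(2, ℤ)) : Matrix (Fin 2) (Fin 2) ℤ) := by rw [hh]
  rw [Matrix.SpecialLinearGroup.coe_mul, Matrix.SpecialLinearGroup.coe_mul, hT, hT'] at hm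
  have m00 := congrFun (congrFun hm 0) 0
  have m01 := congrFun (congrFun hm 0) 1
  simp only [Matrix.mul_apply, Fin.sum_univ_two, Matrix.of_apply, Matrix.cons_val_zero,
    Matrix.cons_val_one, Matrix.cons_val', Matrix.empty_val', Matrix.cons_val_fin_one] at m00 m01
  have hc : (h : Matrix (Fin 2) (Fin 2) ℤ) 1 0 = 0 := by
    have : k' * (h : Matrix (Fin 2) (Fin 2) ℤ) 1 0 = 0 := by linear_combination -m00
    rcases mul_eq_zero.mp this with h0 | h0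
    · exact absurd h0 hk'
    · exact h0
  have hc' : h 1 0 = 0 := hc
  rw [hc'] at hd
  have had : h 0 0 * h 1 1 = 1 := by linear_combination hd
  have hunit : (h 0 0 = 1 ∧ h 1 1 = 1) ∨ (h 0 0 = -1 ∧ h 1 1 = -1) :=
    Int.mul_eq_one_iff_eq_one_or_neg_one.mp had
  have m01' : h 0 0 * k + h 0 1 = h 0 1 + k' * h 1 1 := by
    have := m01
    linear_combination this
  rcases hunit with ⟨ha, hdd⟩ | ⟨ha, hdd⟩
  · refine ⟨by rw [ha, hdd] at m01'; linarith, h 0 1, Or.inl ?_⟩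
    apply Subtype.ext
    rw [coe_T_zpow]
    ext i j
    fin_cases i <;> fin_cases j
    · exact ha
    · rfl
    · exact hc'
    · exact hdd
  · refine ⟨by rw [ha, hdd] at m01'; linarith, -h 0 1, Or.inr ?_⟩
    apply Subtype.ext
    rw [Matrix.SpecialLinearGroup.coe_neg, coe_T_zpow]
    ext i j
    fin_cases i <;> fin_cases j
    · show h 0 0 = -1
      exact ha
    · show h 0 1 = - -h 0 1
      ring
    · show h 1 0 = -0
      rw [hc']; ring
    · show h 1 1 = -1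
      exact hdd

end Fermat.Agent.LR.PD94
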