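import Fermat.Agent.LR.PD94.Surface
import Fermat.Agent.LR.PD94.PosPar

/-!
# P-LR (S41), Poincare duality leaf: the cusp generators classify the positive parabolics

`Γ` is a subgroup of finite index of `SL(2, ℤ)`.

* `h94lr_exists_cusp_of_isPosPar` (**existence**): every positive parabolic element of `Γ` is
  `γ⁻¹ (cuspGen ω) ^ m γ` for a cusp `ω`, an integer `m ≥ 1` and `γ ∈ Γ`;
* `h94lr_cusp_unique` (**uniqueness**): `ω` and `m` are determined by the element (`-1 ∈ Γ`).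
-/

set_option autoImplicit false

open scoped MatrixGroups
open ModularGroup

namespace Fermat.Agent.LR.PD94

variable (Γ : Subgroup SL(2, ℤ))

theorem h94lr_tau_zpow_apply (i : ℤ) (x : SL(2, ℤ) ⧸ Γ) :
    (h94lr_tau Γ ^ i) x = ((T : SL(2, ℤ)) ^ i)⁻¹ • x := by
  have h : h94lr_tau Γ ^ i = MulAction.toPerm (((T : SL(2, ℤ)) ^ i)⁻¹) := by
    rw [h94lr_tau, ← inv_zpow]
    exact (map_zpow (MulAction.toPermHom SL(2, ℤ) (SL(2, ℤ) ⧸ Γ)) _ i).symm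
  rw [h]
  rfl

theorem h94lr_mk_out_mul (x : SL(2, ℤ) ⧸ Γ) (γ : Γ) :
    ((Quotient.out x * (γ : SL(2, ℤ)) : SL(2, ℤ)) : SL(2, ℤ) ⧸ Γ) = x := by
  have h : ((Quotient.out x * (γ : SL(2, ℤ)) : SL(2, ℤ)) : SL(2, ℤ) ⧸ Γ)
      = ((Quotient.out x : SL(2, ℤ)) : SL(2, ℤ) ⧸ Γ) := by
    rw [QuotientGroup.eq]
    have : (Quotient.out x * (γ : SL(2, ℤ)))⁻¹ * Quotient.out x = ((γ⁻¹ : Γ) : SL(2, ℤ)) := by
      rw [Subgroup.coe_inv]; group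
    rw [this]
    exact (γ⁻¹).2
  rw [h]
  exact QuotientGroup.out_eq' x

/-- the conjugates of the powers of the cusp generators, as conjugates of powers of `T` -/
theorem h94lr_conj_cuspGen_pow (ω : h94lr_Cusp Γ) (m : ℕ) (γ : Γ) :
    ((γ⁻¹ * h94lr_cuspGen Γ ω ^ m * γ : Γ) : SL(2, ℤ))
      = (Quotient.out (h94lr_cuspPt Γ ω) * (γ : SL(2, ℤ)))⁻¹
          * (T : SL(2, ℤ)) ^ (h94lr_cuspWidth Γ ω * m)
          * (Quotient.out (h94lr_cuspPt Γ ω) * (γ : SL(2, ℤ))) := by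
  rw [Subgroup.coe_mul, Subgroup.coe_mul, Subgroup.coe_inv, Subgroup.coe_pow]
  show (γ : SL(2, ℤ))⁻¹ * (h94lr_cuspMat Γ ω) ^ m * (γ : SL(2, ℤ)) = _
  rw [h94lr_cuspMat]
  have h := conj_pow (i := m) (a := (Quotient.out (h94lr_cuspPt Γ ω))⁻¹)
    (b := (T : SL(2, ℤ)) ^ h94lr_cuspWidth Γ ω)
  rw [inv_inv] at h
  rw [h, ← pow_mul]
  group

/-- the cusp generators are positive parabolic -/
theorem h94lr_isPosPar_cuspGen [Finite (SL(2, ℤ) ⧸ Γ)] (ω : h94lr_Cusp Γ) :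
    h94lr_IsPosPar ((h94lr_cuspGen Γ ω : Γ) : SL(2, ℤ)) :=
  ⟨Quotient.out (h94lr_cuspPt Γ ω), h94lr_cuspWidth Γ ω, h94lr_cuspWidth_pos Γ ω, rfl⟩

/-- **existence**: every positive parabolic element of `Γ` is conjugate in `Γ` to a power of
a cusp generator. -/
theorem h94lr_exists_cusp_of_isPosPar [Finite (SL(2, ℤ) ⧸ Γ)] (t : Γ)
    (ht : h94lr_IsPosPar (t : SL(2, ℤ))) :
    ∃ (ω : h94lr_Cusp Γ) (m : ℕ) (γ : Γ), 0 < m ∧ t = γ⁻¹ * h94lr_cuspGen Γ ω ^ m * γ := by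
  obtain ⟨a, k, hk, hta⟩ := ht
  -- the coset of `a` is fixed by `T ^ k`
  have hfix : ((T : SL(2, ℤ)) ^ k) • ((a : SL(2, ℤ)) : SL(2, ℤ) ⧸ Γ) = (a : SL(2, ℤ) ⧸ Γ) := by
    have h1 : ((T : SL(2, ℤ)) ^ k) • ((a : SL(2, ℤ)) : SL(2, ℤ) ⧸ Γ)
        = ((((T : SL(2, ℤ)) ^ k) * a : SL(2, ℤ)) : SL(2, ℤ) ⧸ Γ) := rfl
    rw [h1, QuotientGroup.eq]
    have : ((T : SL(2, ℤ)) ^ k * a)⁻¹ * a = ((t⁻¹ : Γ) : SL(2, ℤ)) := by
      rw [Subgroup.coe_inv, hta]; group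
    rw [this]
    exact (t⁻¹).2
  -- its cycle
  obtain ⟨ω, hω⟩ : ∃ ω : h94lr_Cusp Γ,
      ω = Quotient.mk (Equiv.Perm.SameCycle.setoid (h94lr_tau Γ)) (a : SL(2, ℤ) ⧸ Γ) := ⟨_, rfl⟩
  have hsc : Equiv.Perm.SameCycle (h94lr_tau Γ) (h94lr_cuspPt Γ ω) (a : SL(2, ℤ) ⧸ Γ) := by
    rw [hω]
    exact h94lr_sameCycle_rep (h94lr_tau Γ) _
  obtain ⟨i, hi⟩ := hsc
  rw [h94lr_tau_zpow_apply] at hi
  -- the width divides `k`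
  have hper : ((h94lr_tau Γ) ^ k) (h94lr_cuspPt Γ ω) = h94lr_cuspPt Γ ω := by
    rw [h94lr_tau_pow_apply, inv_smul_eq_iff]
    have e : h94lr_cuspPt Γ ω = ((T : SL(2, ℤ)) ^ i) • ((a : SL(2, ℤ)) : SL(2, ℤ) ⧸ Γ) := by
      rw [← hi, smul_inv_smul]
    rw [e, ← mul_smul]
    have hc : (T : SL(2, ℤ)) ^ k * T ^ i = T ^ i * T ^ k := by
      rw [← zpow_natCast, ← zpow_add, ← zpow_add, add_comm]
    rw [hc, mul_smul, hfix]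
  have hdvd : h94lr_cuspWidth Γ ω ∣ k := by
    apply Function.IsPeriodicPt.minimalPeriod_dvd
    rw [Function.IsPeriodicPt, Function.IsFixedPt, Equiv.Perm.iterate_eq_pow]
    exact hper
  obtain ⟨m, hm⟩ := hdvd
  have hm0 : 0 < m := by
    rcases Nat.eq_zero_or_pos m with h | h
    · rw [h, mul_zero] at hm; omega
    · exact h
  -- the element `γ`
  have hγmem : (Quotient.out (h94lr_cuspPt Γ ω))⁻¹ * ((T : SL(2, ℤ)) ^ i * a) ∈ Γ := by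
    rw [← QuotientGroup.eq, QuotientGroup.out_eq']
    have h1 : ((((T : SL(2, ℤ)) ^ i) * a : SL(2, ℤ)) : SL(2, ℤ) ⧸ Γ)
        = ((T : SL(2, ℤ)) ^ i) • ((a : SL(2, ℤ)) : SL(2, ℤ) ⧸ Γ) := rfl
    rw [h1, ← hi, smul_inv_smul]
  refine ⟨ω, m, ⟨_, hγmem⟩, hm0, ?_⟩
  apply Subtype.ext
  rw [h94lr_conj_cuspGen_pow, ← hm, hta]
  have e : Quotient.out (h94lr_cuspPt Γ ω)
      * ((⟨_, hγmem⟩ : Γ) : SL(2, ℤ)) = (T : SL(2, ℤ)) ^ i * a := by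
    show Quotient.out (h94lr_cuspPt Γ ω)
      * ((Quotient.out (h94lr_cuspPt Γ ω))⁻¹ * ((T : SL(2, ℤ)) ^ i * a)) = _
    group
  rw [e]
  have hc : ((T : SL(2, ℤ)) ^ i)⁻¹ * (T : SL(2, ℤ)) ^ k * T ^ i = T ^ k := by
    rw [← zpow_natCast, ← zpow_neg, ← zpow_add, ← zpow_add]
    congr 1
    ring
  calc a⁻¹ * (T : SL(2, ℤ)) ^ k * a
      = a⁻¹ * (((T : SL(2, ℤ)) ^ i)⁻¹ * (T : SL(2, ℤ)) ^ k * T ^ i) * a := by rw [hc]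
    _ = ((T : SL(2, ℤ)) ^ i * a)⁻¹ * (T : SL(2, ℤ)) ^ k * ((T : SL(2, ℤ)) ^ i * a) := by group

/-- **uniqueness**: the cusp and the exponent of a positive parabolic element are determined. -/
theorem h94lr_cusp_unique [Finite (SL(2, ℤ) ⧸ Γ)] (hΓ : (-1 : SL(2, ℤ)) ∈ Γ)
    {ω ω' : h94lr_Cusp Γ} {m m' : ℕ} (hm' : 0 < m') {γ γ' : Γ}
    (h : γ⁻¹ * h94lr_cuspGen Γ ω ^ m * γ = γ'⁻¹ * h94lr_cuspGen Γ ω' ^ m' * γ') :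
    ω = ω' ∧ m = m' := by
  have h' : ((γ⁻¹ * h94lr_cuspGen Γ ω ^ m * γ : Γ) : SL(2, ℤ))
      = ((γ'⁻¹ * h94lr_cuspGen Γ ω' ^ m' * γ' : Γ) : SL(2, ℤ)) := by rw [h]
  rw [h94lr_conj_cuspGen_pow, h94lr_conj_cuspGen_pow] at h'
  obtain ⟨a, ha⟩ : ∃ a : SL(2, ℤ), a = Quotient.out (h94lr_cuspPt Γ ω) * (γ : SL(2, ℤ)) :=
    ⟨_, rfl⟩
  obtain ⟨a', ha'⟩ : ∃ a' : SL(2, ℤ), a' = Quotient.out (h94lr_cuspPt Γ ω') * (γ' : SL(2, ℤ)) :=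
    ⟨_, rfl⟩
  rw [← ha, ← ha'] at h'
  have hcomm : (a' * a⁻¹) * (T : SL(2, ℤ)) ^ ((h94lr_cuspWidth Γ ω * m : ℕ) : ℤ)
      = (T : SL(2, ℤ)) ^ ((h94lr_cuspWidth Γ ω' * m' : ℕ) : ℤ) * (a' * a⁻¹) := by
    rw [zpow_natCast, zpow_natCast]
    calc a' * a⁻¹ * (T : SL(2, ℤ)) ^ (h94lr_cuspWidth Γ ω * m)
        = a' * (a⁻¹ * (T : SL(2, ℤ)) ^ (h94lr_cuspWidth Γ ω * m) * a) * a⁻¹ := by group
      _ = a' * (a'⁻¹ * (T : SL(2, ℤ)) ^ (h94lr_cuspWidth Γ ω' * m') * a') * a⁻¹ := by rw [h']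
      _ = (T : SL(2, ℤ)) ^ (h94lr_cuspWidth Γ ω' * m') * (a' * a⁻¹) := by group
  have hk' : ((h94lr_cuspWidth Γ ω' * m' : ℕ) : ℤ) ≠ 0 := by
    have := h94lr_cuspWidth_pos Γ ω'
    have : 0 < h94lr_cuspWidth Γ ω' * m' := Nat.mul_pos this hm'
    exact_mod_cast this.ne'
  obtain ⟨hkk, j, hj⟩ := h94lr_normalizer_T _ _ _ hk' hcomm
  -- the two chosen points are in the same cycle
  have hx : (a : SL(2, ℤ) ⧸ Γ) = h94lr_cuspPt Γ ω := by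
    rw [ha]; exact h94lr_mk_out_mul Γ _ γ
  have hx' : (a' : SL(2, ℤ) ⧸ Γ) = h94lr_cuspPt Γ ω' := by
    rw [ha']; exact h94lr_mk_out_mul Γ _ γ'
  have hpt : h94lr_cuspPt Γ ω' = ((T : SL(2, ℤ)) ^ j) • h94lr_cuspPt Γ ω := by
    have e1 : a' = (a' * a⁻¹) * a := by group
    have e2 : (a' : SL(2, ℤ) ⧸ Γ) = (a' * a⁻¹) • ((a : SL(2, ℤ)) : SL(2, ℤ) ⧸ Γ) := by
      conv_lhs => rw [e1]
      rfl
    rw [← hx', e2, hx]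
    rcases hj with hj | hj
    · rw [hj]
    · rw [hj]
      have : (-(T : SL(2, ℤ)) ^ j) = (-1 : SL(2, ℤ)) * T ^ j := by
        rw [neg_mul, one_mul]
      rw [this, mul_smul]
      exact h94lr_neg_one_smul Γ hΓ _
  have hsc : Equiv.Perm.SameCycle (h94lr_tau Γ) (h94lr_cuspPt Γ ω) (h94lr_cuspPt Γ ω') := by
    refine ⟨-j, ?_⟩
    rw [h94lr_tau_zpow_apply, hpt, zpow_neg, inv_inv]
  have hωω' : ω = ω' := by
    rw [← h94lr_mk_rep (h94lr_tau Γ) ω, ← h94lr_mk_rep (h94lr_tau Γ) ω']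
    exact Quotient.sound hsc
  refine ⟨hωω', ?_⟩
  subst hωω'
  have hw := h94lr_cuspWidth_pos Γ ω
  have hkk' : h94lr_cuspWidth Γ ω * m = h94lr_cuspWidth Γ ω * m' := by exact_mod_cast hkk
  exact Nat.eq_of_mul_eq_mul_left hw hkk'

end Fermat.Agent.LR.PD94
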