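import Fermat.Agent.S16.Coh.Shapiro

/-!
# P-LR (S41), Poincare duality leaf: existence of cup-primitives ("Heisenberg cochains")

`X` is a set with an action of `SL(2, ℤ)` on which `-1` acts trivially; `A`, `A'`, `R` are abelian
groups and `μ : A →+ A' →+ R` is biadditive.  For cocycles `κ : SL(2, ℤ) → X → A`,
`κ' : SL(2, ℤ) → X → A'` (in the sense of `h94_IsCocycle`) a *cup-primitive* is a map
`e : SL(2, ℤ) → X → R` with

  `e (g h) y = e g y + e h (g⁻¹ y) + μ (κ g y) (κ' h (g⁻¹ y))`.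

* `h94lr_exists_heis`: a cup-primitive with prescribed values `e S = eS`, `e (S T) = eU` exists as
  soon as `eS`, `eU` satisfy the two relations coming from `S ^ 2 = -1`, `(S T) ^ 3 = -1`
  (presentation of `PSL(2, ℤ)`, ping-pong).
* `h94lr_exists_heis_normalized`: the case `κ (S T) = 0 = κ' (S T)`, `eU = 0`.
* `h94lr_heis_ext`: uniqueness.
* `h94lr_heis_stab`: on the stabiliser of a point `x₀` the function `c γ = e γ x₀` satisfies
  `c (γ γ') = c γ + c γ' + μ (φ γ) (φ' γ')`, with `φ γ = κ γ x₀`, `φ' γ = κ' γ x₀`.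
-/

set_option autoImplicit false

open scoped MatrixGroups
open ModularGroup

namespace Fermat.Agent.LR.PD94

open Fermat.Agent.S16.Coh

section Heis

variable {X : Type*} [MulAction SL(2, ℤ) X] {A A' R : Type*} [AddCommGroup A] [AddCommGroup A']
  [AddCommGroup R] (μ : A →+ A' →+ R)

/-- the permutation `(x, v, r) ↦ (g x, v + F' (g x), r + E (g x) + μ (F (g x)) v)`
of `X × A' × R`. -/
def h94lr_heis (g : SL(2, ℤ)) (F : X → A) (F' : X → A') (E : X → R) :
    Equiv.Perm (X × A' × R) where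
  toFun q := (g • q.1, q.2.1 + F' (g • q.1), q.2.2 + E (g • q.1) + μ (F (g • q.1)) q.2.1)
  invFun q := (g⁻¹ • q.1, q.2.1 - F' q.1, q.2.2 - E q.1 - μ (F q.1) (q.2.1 - F' q.1))
  left_inv q := by
    refine Prod.ext ?_ (Prod.ext ?_ ?_)
    · simp
    · simp
    · simp only [add_sub_cancel_right]
      abel
  right_inv q := by
    refine Prod.ext ?_ (Prod.ext ?_ ?_)
    · simp
    · simp
    · simp only [smul_inv_smul]
      abel

theorem h94lr_heis_apply (g : SL(2, ℤ)) (F : X → A) (F' : X → A') (E : X → R)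
    (q : X × A' × R) :
    h94lr_heis μ g F F' E q
      = (g • q.1, q.2.1 + F' (g • q.1), q.2.2 + E (g • q.1) + μ (F (g • q.1)) q.2.1) := rfl

theorem h94lr_heis_mul (g h : SL(2, ℤ)) (F F2 : X → A) (F' F2' : X → A') (E E2 : X → R) :
    h94lr_heis μ g F F' E * h94lr_heis μ h F2 F2' E2
      = h94lr_heis μ (g * h) (fun y => F y + F2 (g⁻¹ • y)) (fun y => F' y + F2' (g⁻¹ • y))
          (fun y => E y + E2 (g⁻¹ • y) + μ (F y) (F2' (g⁻¹ • y))) := by
  apply Equiv.ext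
  intro q
  rw [Equiv.Perm.mul_apply, h94lr_heis_apply, h94lr_heis_apply, h94lr_heis_apply]
  refine Prod.ext ?_ (Prod.ext ?_ ?_)
  · simp [mul_smul]
  · simp only [mul_smul, inv_smul_smul]
    abel
  · simp only [mul_smul, inv_smul_smul, map_add, AddMonoidHom.add_apply]
    abel

theorem h94lr_heis_one_of_trivial {g : SL(2, ℤ)} (hg : ∀ x : X, g • x = x) {F : X → A}
    {F' : X → A'} {E : X → R} (hF : ∀ x, F x = 0) (hF' : ∀ x, F' x = 0) (hE : ∀ x, E x = 0) :
    h94lr_heis μ g F F' E = 1 := by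
  apply Equiv.ext
  intro q
  rw [h94lr_heis_apply, hg, hF, hF', hE]
  simp

theorem h94lr_heis_inv (g : SL(2, ℤ)) (F : X → A) (F' : X → A') (E : X → R) :
    (h94lr_heis μ g F F' E)⁻¹
      = h94lr_heis μ g⁻¹ (fun z => - F (g • z)) (fun z => - F' (g • z))
          (fun z => - E (g • z) + μ (F (g • z)) (F' (g • z))) := by
  rw [inv_eq_iff_mul_eq_one, h94lr_heis_mul]
  exact h94lr_heis_one_of_trivial μ (fun x => by rw [mul_inv_cancel, one_smul])
    (fun x => by simp) (fun x => by simp) (fun x => by simp)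

theorem h94lr_heis_injective (g : SL(2, ℤ)) {F : X → A} {F' : X → A'} {E E2 : X → R}
    (h : h94lr_heis μ g F F' E = h94lr_heis μ g F F' E2) : E = E2 := by
  funext y
  have h1 := congrArg (fun σ : Equiv.Perm (X × A' × R) => (σ (g⁻¹ • y, 0, 0)).2.2) h
  simpa [h94lr_heis_apply] using h1

/-- the cup-primitive identity -/
def h94lr_IsHeis (κ : SL(2, ℤ) → X → A) (κ' : SL(2, ℤ) → X → A') (e : SL(2, ℤ) → X → R) : Prop :=
  ∀ (g h : SL(2, ℤ)) (y : X), e (g * h) y = e g y + e h (g⁻¹ • y) + μ (κ g y) (κ' h (g⁻¹ • y))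

variable {μ}

/-- **existence of cup-primitives** with prescribed values on `S` and `S T`. -/
theorem h94lr_exists_heis (hneg : ∀ x : X, (-1 : SL(2, ℤ)) • x = x)
    {κ : SL(2, ℤ) → X → A} {κ' : SL(2, ℤ) → X → A'} (hκ : h94_IsCocycle κ)
    (hκ' : h94_IsCocycle κ')
    (hκS : ∀ x, κ S x + κ S ((S : SL(2, ℤ)) • x) = 0)
    (hκ'S : ∀ x, κ' S x + κ' S ((S : SL(2, ℤ)) • x) = 0) (eS eU : X → R)
    (hS : ∀ y, eS y + eS ((S : SL(2, ℤ))⁻¹ • y)
        + μ (κ S y) (κ' S ((S : SL(2, ℤ))⁻¹ • y)) = 0)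
    (hU : ∀ y, (eU y + eU (((S : SL(2, ℤ)) * T)⁻¹ • y)
          + μ (κ (S * T) y) (κ' (S * T) (((S : SL(2, ℤ)) * T)⁻¹ • y)))
        + eU ((((S : SL(2, ℤ)) * T) * ((S : SL(2, ℤ)) * T))⁻¹ • y)
        + μ (κ (S * T) y + κ (S * T) (((S : SL(2, ℤ)) * T)⁻¹ • y))
            (κ' (S * T) ((((S : SL(2, ℤ)) * T) * ((S : SL(2, ℤ)) * T))⁻¹ • y)) = 0) :
    ∃ e : SL(2, ℤ) → X → R, h94lr_IsHeis μ κ κ' e ∧ e S = eS ∧ e (S * T) = eU := by
  have hrelS : (h94lr_heis μ S (κ S) (κ' S) eS) ^ 2 = 1 := by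
    rw [pow_two, h94lr_heis_mul]
    refine h94lr_heis_one_of_trivial μ (fun x => ?_) (fun x => ?_) (fun x => ?_) (fun x => ?_)
    · rw [← pow_two, h94_S_sq, hneg]
    · have h := hκ S S x
      have h1 : κ (S * S) x = 0 := by
        have h2 : (S : SL(2, ℤ)) * S = -1 := by rw [← pow_two, h94_S_sq]
        rw [h2]
        exact hκ.neg_one hneg hκS x
      rw [h1] at h
      exact h.symm
    · have h := hκ' S S x
      have h1 : κ' (S * S) x = 0 := by
        have h2 : (S : SL(2, ℤ)) * S = -1 := by rw [← pow_two, h94_S_sq]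
        rw [h2]
        exact hκ'.neg_one hneg hκ'S x
      rw [h1] at h
      exact h.symm
    · exact hS x
  have hUU : ((S : SL(2, ℤ)) * T) * ((S : SL(2, ℤ)) * T) * ((S : SL(2, ℤ)) * T) = -1 := by
    rw [← pow_two, ← pow_succ]
    exact h94_U_cube
  have hrelU : (h94lr_heis μ (S * T) (κ (S * T)) (κ' (S * T)) eU) ^ 3 = 1 := by
    rw [pow_succ, pow_two, h94lr_heis_mul, h94lr_heis_mul]
    refine h94lr_heis_one_of_trivial μ (fun x => ?_) (fun x => ?_) (fun x => ?_) (fun x => ?_)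
    · rw [hUU, hneg]
    · have h := hκ ((S * T) * (S * T)) (S * T) x
      rw [hUU, hκ.neg_one hneg hκS x, hκ (S * T) (S * T) x] at h
      exact h.symm
    · have h := hκ' ((S * T) * (S * T)) (S * T) x
      rw [hUU, hκ'.neg_one hneg hκ'S x, hκ' (S * T) (S * T) x] at h
      exact h.symm
    · exact hU x
  obtain ⟨Φ, hΦS, hΦU⟩ := h94_exists_hom_of_relations
    (h94lr_heis μ S (κ S) (κ' S) eS) (h94lr_heis μ (S * T) (κ (S * T)) (κ' (S * T)) eU)
    hrelS hrelU
  let K : Subgroup SL(2, ℤ) :=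
    { carrier := {g | ∃ E : X → R, Φ g = h94lr_heis μ g (κ g) (κ' g) E}
      one_mem' := by
        refine ⟨fun _ => 0, ?_⟩
        rw [map_one]
        exact (h94lr_heis_one_of_trivial μ (fun x => one_smul _ x) (fun x => hκ.one x)
          (fun x => hκ'.one x) (fun _ => rfl)).symm
      mul_mem' := by
        rintro g h ⟨E, hE⟩ ⟨E2, hE2⟩
        refine ⟨fun y => E y + E2 (g⁻¹ • y) + μ (κ g y) (κ' h (g⁻¹ • y)), ?_⟩
        rw [map_mul, hE, hE2, h94lr_heis_mul]
        have h1 : (fun y => κ g y + κ h (g⁻¹ • y)) = κ (g * h) := by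
          funext y; exact (hκ g h y).symm
        have h2 : (fun y => κ' g y + κ' h (g⁻¹ • y)) = κ' (g * h) := by
          funext y; exact (hκ' g h y).symm
        rw [h1, h2]
      inv_mem' := by
        rintro g ⟨E, hE⟩
        refine ⟨fun z => - E (g • z) + μ (κ g (g • z)) (κ' g (g • z)), ?_⟩
        rw [map_inv, hE, h94lr_heis_inv]
        have h1 : (fun z => - κ g (g • z)) = κ g⁻¹ := by
          funext z; exact (hκ.inv g z).symm
        have h2 : (fun z => - κ' g (g • z)) = κ' g⁻¹ := by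
          funext z; exact (hκ'.inv g z).symm
        rw [h1, h2] }
  have hSK : (S : SL(2, ℤ)) ∈ K := ⟨eS, hΦS⟩
  have hUK : ((S : SL(2, ℤ)) * T) ∈ K := ⟨eU, hΦU⟩
  have hTK : (T : SL(2, ℤ)) ∈ K := by
    have : (T : SL(2, ℤ)) = S⁻¹ * (S * T) := by rw [inv_mul_cancel_left]
    rw [this]
    exact K.mul_mem (K.inv_mem hSK) hUK
  have hK : ∀ g : SL(2, ℤ), g ∈ K := by
    intro g
    have hg : g ∈ Subgroup.closure ({S, T} : Set SL(2, ℤ)) := by
      rw [SpecialLinearGroup.SL2Z_generators]; trivial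
    have hle : Subgroup.closure ({S, T} : Set SL(2, ℤ)) ≤ K := by
      rw [Subgroup.closure_le]
      rintro x (rfl | rfl)
      · exact hSK
      · exact hTK
    exact hle hg
  choose e he using hK
  refine ⟨e, ?_, ?_, ?_⟩
  · intro g h y
    have h1 : Φ (g * h) = h94lr_heis μ (g * h) (κ (g * h)) (κ' (g * h))
        (fun y => e g y + e h (g⁻¹ • y) + μ (κ g y) (κ' h (g⁻¹ • y))) := by
      rw [map_mul, he g, he h, h94lr_heis_mul]
      have h1 : (fun y => κ g y + κ h (g⁻¹ • y)) = κ (g * h) := by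
        funext y; exact (hκ g h y).symm
      have h2 : (fun y => κ' g y + κ' h (g⁻¹ • y)) = κ' (g * h) := by
        funext y; exact (hκ' g h y).symm
      rw [h1, h2]
    have h2 := h94lr_heis_injective μ (g * h) ((he (g * h)).symm.trans h1)
    exact congrFun h2 y
  · exact h94lr_heis_injective μ S ((he S).symm.trans hΦS)
  · exact h94lr_heis_injective μ (S * T) ((he (S * T)).symm.trans hΦU)

/-- the normalised case: `κ (S T) = 0` and `e (S T) = 0`. -/
theorem h94lr_exists_heis_normalized (hneg : ∀ x : X, (-1 : SL(2, ℤ)) • x = x)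
    {κ : SL(2, ℤ) → X → A} {κ' : SL(2, ℤ) → X → A'} (hκ : h94_IsCocycle κ)
    (hκ' : h94_IsCocycle κ')
    (hκS : ∀ x, κ S x + κ S ((S : SL(2, ℤ)) • x) = 0)
    (hκ'S : ∀ x, κ' S x + κ' S ((S : SL(2, ℤ)) • x) = 0)
    (hκU : κ (S * T) = 0) (eS : X → R)
    (hS : ∀ y, eS y + eS ((S : SL(2, ℤ)) • y) = μ (κ S y) (κ' S y)) :
    ∃ e : SL(2, ℤ) → X → R, h94lr_IsHeis μ κ κ' e ∧ e S = eS ∧ e (S * T) = 0 := by
  refine h94lr_exists_heis hneg hκ hκ' hκS hκ'S eS 0 (fun y => ?_) (fun y => ?_)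
  · rw [h94_S_inv_smul hneg, hS y]
    have h3 : κ' S ((S : SL(2, ℤ)) • y) = - κ' S y := by
      rw [eq_neg_iff_add_eq_zero, add_comm]; exact hκ'S y
    rw [h3, map_neg, add_neg_cancel]
  · simp [hκU]

variable {κ : SL(2, ℤ) → X → A} {κ' : SL(2, ℤ) → X → A'} {e e2 : SL(2, ℤ) → X → R}

/-- the difference of two cup-primitives is a cocycle. -/
theorem h94lr_IsHeis.sub_isCocycle (he : h94lr_IsHeis μ κ κ' e) (he2 : h94lr_IsHeis μ κ κ' e2) :
    h94_IsCocycle (fun g y => e g y - e2 g y) := by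
  intro g h y
  show e (g * h) y - e2 (g * h) y = (e g y - e2 g y) + (e h (g⁻¹ • y) - e2 h (g⁻¹ • y))
  rw [he g h y, he2 g h y]
  abel

/-- **uniqueness** of cup-primitives with given values on `S` and `S T`. -/
theorem h94lr_heis_ext (he : h94lr_IsHeis μ κ κ' e) (he2 : h94lr_IsHeis μ κ κ' e2)
    (hS : e S = e2 S) (hU : e (S * T) = e2 (S * T)) (g : SL(2, ℤ)) : e g = e2 g := by
  have h0 : h94_IsCocycle (fun (_ : SL(2, ℤ)) (_ : X) => (0 : R)) := by
    intro g h y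
    simp
  have h := h94_cocycle_ext (he.sub_isCocycle he2) h0
    (by funext y; simp [hS]) (by funext y; simp [hU]) g
  funext y
  have h1 := congrFun h y
  exact sub_eq_zero.mp h1

theorem h94lr_IsHeis.one (he : h94lr_IsHeis μ κ κ' e) (hκ : h94_IsCocycle κ) (y : X) :
    e 1 y = 0 := by
  have h := he 1 1 y
  rw [mul_one, inv_one, one_smul, hκ.one y] at h
  simpa using h

/-- on the stabiliser of `x₀` a cup-primitive gives a Heisenberg cochain for the
homomorphisms `γ ↦ κ γ x₀`, `γ ↦ κ' γ x₀`. -/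
theorem h94lr_heis_stab (he : h94lr_IsHeis μ κ κ' e) (x₀ : X) (g h : SL(2, ℤ))
    (hg : g • x₀ = x₀) :
    e (g * h) x₀ = e g x₀ + e h x₀ + μ (κ g x₀) (κ' h x₀) := by
  have hg' : g⁻¹ • x₀ = x₀ := by
    rw [inv_smul_eq_iff, hg]
  have := he g h x₀
  rw [hg'] at this
  exact this

/-- conjugation invariance on elements on which both homomorphisms vanish. -/
theorem h94lr_heis_conj (he : h94lr_IsHeis μ κ κ' e) (hκ : h94_IsCocycle κ) (x₀ : X) (g t : SL(2, ℤ))
    (hg : g • x₀ = x₀) (ht : t • x₀ = x₀) (h1 : κ t x₀ = 0) (h2 : κ' t x₀ = 0) :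
    e (g * t * g⁻¹) x₀ = e t x₀ := by
  have hg' : g⁻¹ • x₀ = x₀ := by
    rw [inv_smul_eq_iff, hg]
  have hgt : (g * t) • x₀ = x₀ := by rw [mul_smul, ht, hg]
  have e1 := h94lr_heis_stab he x₀ (g * t) g⁻¹ hgt
  have e2 := h94lr_heis_stab he x₀ g t hg
  have e3 := h94lr_heis_stab he x₀ g g⁻¹ hg
  rw [mul_inv_cancel, he.one hκ] at e3
  have k1 : κ (g * t) x₀ = κ g x₀ := by
    have := hκ g t x₀
    rw [hg', h1, add_zero] at this
    exact this
  rw [e1, e2, h2, k1]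
  simp only [map_zero, add_zero]
  have e3' : e g x₀ + e g⁻¹ x₀ + μ (κ g x₀) (κ' g⁻¹ x₀) = 0 := e3.symm
  calc e g x₀ + e t x₀ + e g⁻¹ x₀ + μ (κ g x₀) (κ' g⁻¹ x₀)
      = e t x₀ + (e g x₀ + e g⁻¹ x₀ + μ (κ g x₀) (κ' g⁻¹ x₀)) := by abel
    _ = e t x₀ := by rw [e3', add_zero]

end Heis

end Fermat.Agent.LR.PD94
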