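import Fermat.Agent.LR.PD94.Heis
import Fermat.Agent.S21.H.Cocycle

/-!
# P-LR (S41), Poincare duality leaf: Heisenberg cochains of a pair of homomorphisms

For a subgroup `Γ` of `SL(2, ℤ)` containing `-1`, a commutative ring `R` without `2`- and
`3`-torsion and additive characters `φ ψ : Γ → R` there is `c : Γ → R` with

  `c (γ γ') = c γ + c γ' + φ γ * ψ γ'`      (`h94lr_exists_heis_hom`).

Steps: Shapiro cocycle of a character (`h94lr_shap`), normalisation at `U = S T`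
(`h94lr_exists_unorm`), a half of the `S`-invariant function `a a'` (`h94lr_exists_half`), and
`h94lr_exists_heis_normalized` (ping-pong presentation of `PSL(2, ℤ)`).
-/

set_option autoImplicit false

open scoped MatrixGroups
open ModularGroup

namespace Fermat.Agent.LR.PD94

open Fermat.Agent.S16.Coh

/-! ### primitives along maps of order two and three -/

/-- if `a + a ∘ σ = 0` for an involution `σ`, and `a` vanishes at the fixed points, then a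
"half" of any function `f` with `f ∘ σ = f` vanishing at the fixed points exists. -/
theorem h94lr_exists_half {X R : Type*} [AddCommGroup R] (σ : X → X) (hσ : ∀ x, σ (σ x) = x)
    (f : X → R) (hf : ∀ x, f (σ x) = f x) (hfix : ∀ x, σ x = x → f x = 0) :
    ∃ e : X → R, ∀ x, e x + e (σ x) = f x := by
  classical
  let _ : LinearOrder X := IsWellOrder.linearOrder WellOrderingRel
  refine ⟨fun x => if x < σ x then f x else 0, fun x => ?_⟩
  show (if x < σ x then f x else 0) + (if σ x < σ (σ x) then f (σ x) else 0) = f x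
  rw [hσ x]
  rcases lt_trichotomy x (σ x) with h | h | h
  · rw [if_pos h, if_neg (not_lt_of_gt h), add_zero]
  · have h1 : ¬ x < σ x := by rw [← h]; exact lt_irrefl _
    have h2 : ¬ σ x < x := by rw [← h]; exact lt_irrefl _
    rw [if_neg h1, if_neg h2, add_zero, hfix x h.symm]
  · rw [if_neg (not_lt_of_gt h), if_pos h, zero_add, hf]

/-- a primitive along a map of order three: if `b x + b (τ x) + b (τ² x) = 0` and `b`
vanishes at the fixed points of `τ` then `b x = w x - w (τ x)` for some `w`. -/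
theorem h94lr_exists_primitive_three {X R : Type*} [AddCommGroup R] (τ : X → X)
    (hτ : ∀ x, τ (τ (τ x)) = x) (b : X → R) (hb : ∀ x, b x + b (τ x) + b (τ (τ x)) = 0)
    (hfix : ∀ x, τ x = x → b x = 0) :
    ∃ w : X → R, ∀ x, b x = w x - w (τ x) := by
  classical
  let _ : LinearOrder X := IsWellOrder.linearOrder WellOrderingRel
  -- `val x y z` is the value at `x` when `y = τ x`, `z = τ² x`: `0` if `x` is the maximum of the
  -- orbit, `- b z` if `z` is the maximum, `b x` if `y` is the maximum.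
  let val : X → X → X → R := fun x y z =>
    if y = x then 0
    else if y < x ∧ z < x then 0
    else if x < z ∧ y < z then - b z
    else b x
  let w : X → R := fun x => val x (τ x) (τ (τ x))
  have hval : ∀ x y z, val x y z = if y = x then 0
    else if y < x ∧ z < x then 0
    else if x < z ∧ y < z then - b z
    else b x := fun _ _ _ => rfl
  have hw1 : ∀ x, w x = val x (τ x) (τ (τ x)) := fun _ => rfl
  have hw2 : ∀ x, w (τ x) = val (τ x) (τ (τ x)) x := by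
    intro x
    rw [hw1 (τ x), hτ]
  have hfree1 : ∀ x, τ x ≠ x → τ (τ x) ≠ τ x := by
    intro x hx h
    apply hx
    have := congrArg τ h
    rw [hτ x] at this
    exact h.symm.trans this.symm
  have hfree2 : ∀ x, τ x ≠ x → τ (τ x) ≠ x := by
    intro x hx h
    apply hx
    have := congrArg τ h
    rw [hτ x] at this
    exact this.symm
  refine ⟨w, fun x => ?_⟩
  by_cases h0 : τ x = x
  · rw [hfix x h0, h0, sub_self]
  · have h01 : τ (τ x) ≠ τ x := hfree1 x h0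
    have h02 : τ (τ x) ≠ x := hfree2 x h0
    have h02' : x ≠ τ (τ x) := fun h => h02 h.symm
    rw [hw1, hw2, hval, hval, if_neg h0, if_neg h01]
    have hbx := hb x
    rcases lt_trichotomy x (τ x) with hA | hA | hA
    · rcases lt_trichotomy (τ x) (τ (τ x)) with hB | hB | hB
      · -- max is `τ² x`
        have k1 : ¬ (τ x < x ∧ τ (τ x) < x) := fun h => absurd h.1 (not_lt_of_gt hA)
        have k2 : x < τ (τ x) ∧ τ x < τ (τ x) := ⟨hA.trans hB, hB⟩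
        have k3 : ¬ (τ (τ x) < τ x ∧ x < τ x) := fun h => absurd h.1 (not_lt_of_gt hB)
        have k4 : ¬ (τ x < x ∧ τ (τ x) < x) := k1
        rw [if_neg k1, if_pos k2, if_neg k3, if_neg k4]
        exact eq_sub_of_add_eq (eq_neg_of_add_eq_zero_left hbx)
      · exact absurd hB.symm h01
      · -- max is `τ x`
        have k1 : ¬ (τ x < x ∧ τ (τ x) < x) := fun h => absurd h.1 (not_lt_of_gt hA)
        have k2 : ¬ (x < τ (τ x) ∧ τ x < τ (τ x)) := fun h => absurd h.2 (not_lt_of_gt hB)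
        have k3 : τ (τ x) < τ x ∧ x < τ x := ⟨hB, hA⟩
        rw [if_neg k1, if_neg k2, if_pos k3, sub_zero]
    · exact absurd hA.symm h0
    · rcases lt_trichotomy x (τ (τ x)) with hC | hC | hC
      · -- max is `τ² x`
        have k1 : ¬ (τ x < x ∧ τ (τ x) < x) := fun h => absurd h.2 (not_lt_of_gt hC)
        have k2 : x < τ (τ x) ∧ τ x < τ (τ x) := ⟨hC, hA.trans hC⟩
        have k3 : ¬ (τ (τ x) < τ x ∧ x < τ x) := fun h => absurd h.2 (not_lt_of_gt hA)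
        have k4 : ¬ (τ x < x ∧ τ (τ x) < x) := k1
        rw [if_neg k1, if_pos k2, if_neg k3, if_neg k4]
        exact eq_sub_of_add_eq (eq_neg_of_add_eq_zero_left hbx)
      · exact absurd hC h02'
      · -- max is `x`
        have k1 : τ x < x ∧ τ (τ x) < x := ⟨hA, hC⟩
        have k3 : ¬ (τ (τ x) < τ x ∧ x < τ x) := fun h => absurd h.2 (not_lt_of_gt hA)
        have k4 : ¬ (τ x < x ∧ τ (τ x) < x) → False := fun h => h k1
        have k5 : τ x < τ (τ x) ∨ τ (τ x) < τ x := lt_or_gt_of_ne (fun h => h01 h.symm)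
        rw [if_pos k1, if_neg k3]
        -- `w (τ x)`: the maximum `x = τ² (τ x)` is the third point
        have k6 : τ x < x ∧ τ (τ x) < x := k1
        rw [if_pos ⟨k6.1, k6.2⟩, zero_sub, neg_neg]


/-! ### the Shapiro cocycle of a character -/

section Shapiro

variable (Γ : Subgroup SL(2, ℤ))

/-- `-1` acts trivially on `SL(2, ℤ) ⧸ Γ` when `-1 ∈ Γ`. -/
theorem h94lr_neg_one_smul (hΓ : (-1 : SL(2, ℤ)) ∈ Γ) (x : SL(2, ℤ) ⧸ Γ) :
    (-1 : SL(2, ℤ)) • x = x := by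
  induction x using QuotientGroup.induction_on with
  | H g =>
    rw [MulAction.Quotient.smul_mk, smul_eq_mul, QuotientGroup.eq]
    have : (-1 * g)⁻¹ * g = -1 := by
      rw [neg_one_mul, inv_neg, neg_mul, inv_mul_cancel]
    rw [this]
    exact hΓ

/-- the base point of `SL(2, ℤ) ⧸ Γ`. -/
def h94lr_x0 : SL(2, ℤ) ⧸ Γ := ((1 : SL(2, ℤ)) : SL(2, ℤ) ⧸ Γ)

theorem h94lr_smul_x0 {γ : SL(2, ℤ)} (hγ : γ ∈ Γ) : γ • h94lr_x0 Γ = h94lr_x0 Γ :=
  Fermat.Agent.S21.H.smul_base Γ hγ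

variable {A : Type*} [AddCommGroup A]

/-- the Shapiro cocycle `κ g x = φ (r(x)⁻¹ g r(g⁻¹ x))` of a character `φ` of `Γ`. -/
noncomputable def h94lr_shap (φ : Additive Γ →+ A) (g : SL(2, ℤ)) (x : SL(2, ℤ) ⧸ Γ) : A :=
  φ (Additive.ofMul ⟨Fermat.Agent.S21.H.kap Γ g x, Fermat.Agent.S21.H.kap_mem Γ g x⟩)

theorem h94lr_shap_isCocycle (φ : Additive Γ →+ A) : h94_IsCocycle (h94lr_shap Γ φ) := by
  intro g h y
  rw [h94lr_shap, h94lr_shap, h94lr_shap, ← map_add]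
  congr 1
  show Additive.ofMul _ = Additive.ofMul (_ * _)
  congr 1
  apply Subtype.ext
  exact Fermat.Agent.S21.H.kap_mul Γ g h y

theorem h94lr_hom_conj (φ : Additive Γ →+ A) (γ δ : Γ) :
    φ (Additive.ofMul (δ⁻¹ * γ * δ)) = φ (Additive.ofMul γ) := by
  have h : Additive.ofMul (δ⁻¹ * γ * δ)
      = - Additive.ofMul δ + Additive.ofMul γ + Additive.ofMul δ := rfl
  rw [h, map_add, map_add, map_neg]
  abel

theorem h94lr_shap_of_fix (φ : Additive Γ →+ A) (g : SL(2, ℤ)) (x : SL(2, ℤ) ⧸ Γ)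
    (hx : g • x = x) :
    h94lr_shap Γ φ g x = φ (Additive.ofMul
      ⟨(Quotient.out x)⁻¹ * g * Quotient.out x, Fermat.Agent.S21.H.conj_out_mem Γ hx⟩) := by
  have h : g⁻¹ • x = x := by
    rw [inv_smul_eq_iff, hx]
  rw [h94lr_shap]
  congr 2
  apply Subtype.ext
  show Fermat.Agent.S21.H.kap Γ g x = _
  rw [Fermat.Agent.S21.H.kap, h]

theorem h94lr_shap_base (φ : Additive Γ →+ A) (γ : Γ) :
    h94lr_shap Γ φ (γ : SL(2, ℤ)) (h94lr_x0 Γ) = φ (Additive.ofMul γ) := by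
  have hr : Quotient.out (h94lr_x0 Γ) ∈ Γ := Fermat.Agent.S21.H.out_one_mem Γ
  rw [h94lr_shap_of_fix Γ φ _ _ (h94lr_smul_x0 Γ γ.2)]
  have h1 : (⟨(Quotient.out (h94lr_x0 Γ))⁻¹ * (γ : SL(2, ℤ)) * Quotient.out (h94lr_x0 Γ),
      Fermat.Agent.S21.H.conj_out_mem Γ (h94lr_smul_x0 Γ γ.2)⟩ : Γ)
      = (⟨Quotient.out (h94lr_x0 Γ), hr⟩ : Γ)⁻¹ * γ * ⟨Quotient.out (h94lr_x0 Γ), hr⟩ := by
    apply Subtype.ext
    rfl
  rw [h1, h94lr_hom_conj]

/-- the value of the Shapiro cocycle at the central element `-1`. -/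
theorem h94lr_shap_neg_one (hΓ : (-1 : SL(2, ℤ)) ∈ Γ) (φ : Additive Γ →+ A)
    (hφ : φ (Additive.ofMul ⟨-1, hΓ⟩) = 0) (x : SL(2, ℤ) ⧸ Γ) :
    h94lr_shap Γ φ (-1) x = 0 := by
  rw [h94lr_shap_of_fix Γ φ _ _ (h94lr_neg_one_smul Γ hΓ x), ← hφ]
  congr 2
  apply Subtype.ext
  show (Quotient.out x)⁻¹ * (-1) * Quotient.out x = -1
  rw [mul_neg, mul_one, neg_mul, inv_mul_cancel]

theorem h94lr_hom_neg_one (hΓ : (-1 : SL(2, ℤ)) ∈ Γ) (h2 : ∀ a : A, a + a = 0 → a = 0)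
    (φ : Additive Γ →+ A) : φ (Additive.ofMul ⟨-1, hΓ⟩) = 0 := by
  apply h2
  rw [← map_add]
  have : Additive.ofMul (⟨-1, hΓ⟩ : Γ) + Additive.ofMul (⟨-1, hΓ⟩ : Γ) = 0 := by
    show Additive.ofMul ((⟨-1, hΓ⟩ : Γ) * ⟨-1, hΓ⟩) = 0
    have : (⟨-1, hΓ⟩ : Γ) * ⟨-1, hΓ⟩ = 1 := by
      apply Subtype.ext
      show (-1 : SL(2, ℤ)) * (-1) = 1
      rw [neg_mul_neg, one_mul]
    rw [this]
    rfl
  rw [this, map_zero]

end Shapiro

/-! ### coboundaries and normalisation at `U = S T` -/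

section Normalise

variable {X : Type*} [MulAction SL(2, ℤ) X] {A : Type*} [AddCommGroup A]

/-- adding a coboundary to a cocycle. -/
theorem h94lr_isCocycle_add_cob {κ : SL(2, ℤ) → X → A} (hκ : h94_IsCocycle κ) (w : X → A) :
    h94_IsCocycle (fun g y => κ g y + (w (g⁻¹ • y) - w y)) := by
  intro g h y
  show κ (g * h) y + (w ((g * h)⁻¹ • y) - w y)
    = (κ g y + (w (g⁻¹ • y) - w y)) + (κ h (g⁻¹ • y) + (w (h⁻¹ • (g⁻¹ • y)) - w (g⁻¹ • y)))
  rw [hκ g h y, mul_inv_rev, mul_smul]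
  abel

/-- the relation at `S` from the vanishing at `-1`. -/
theorem h94lr_S_rel_of_neg_one (hneg : ∀ x : X, (-1 : SL(2, ℤ)) • x = x)
    {κ : SL(2, ℤ) → X → A} (hκ : h94_IsCocycle κ) (h1 : ∀ x, κ (-1) x = 0) (x : X) :
    κ S x + κ S ((S : SL(2, ℤ)) • x) = 0 := by
  have h := hκ S S x
  rw [← pow_two, h94_S_sq, h94_S_inv_smul hneg, h1] at h
  exact h.symm

/-- the relation at `U = S T` from the vanishing at `-1`. -/
theorem h94lr_U_rel_of_neg_one {κ : SL(2, ℤ) → X → A} (hκ : h94_IsCocycle κ)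
    (h1 : ∀ x, κ (-1) x = 0) (x : X) :
    κ (S * T) x + κ (S * T) (((S : SL(2, ℤ)) * T)⁻¹ • x)
      + κ (S * T) (((S : SL(2, ℤ)) * T)⁻¹ • (((S : SL(2, ℤ)) * T)⁻¹ • x)) = 0 := by
  have hUU : ((S : SL(2, ℤ)) * T) * ((S : SL(2, ℤ)) * T) * ((S : SL(2, ℤ)) * T) = -1 := by
    rw [← pow_two, ← pow_succ]
    exact h94_U_cube
  have h := hκ ((S * T) * (S * T)) (S * T) x
  have e : (((S : SL(2, ℤ)) * T) * ((S : SL(2, ℤ)) * T))⁻¹ • x
      = ((S : SL(2, ℤ)) * T)⁻¹ • (((S : SL(2, ℤ)) * T)⁻¹ • x) := by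
    rw [mul_inv_rev ((S : SL(2, ℤ)) * T) ((S : SL(2, ℤ)) * T)]
    exact mul_smul _ _ _
  rw [hUU, h1, hκ (S * T) (S * T) x, e] at h
  exact h.symm

/-- **normalisation at `U`**: a cocycle vanishing at `-1`, with values in a group without
`3`-torsion, is cohomologous to a cocycle vanishing at `U = S T`. -/
theorem h94lr_exists_unorm (hneg : ∀ x : X, (-1 : SL(2, ℤ)) • x = x)
    (h3 : ∀ a : A, a + a + a = 0 → a = 0)
    {κ : SL(2, ℤ) → X → A} (hκ : h94_IsCocycle κ) (h1 : ∀ x, κ (-1) x = 0) :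
    ∃ w : X → A, ∀ y, κ (S * T) y + (w (((S : SL(2, ℤ)) * T)⁻¹ • y) - w y) = 0 := by
  have hτ : ∀ x : X, ((S : SL(2, ℤ)) * T)⁻¹ • (((S : SL(2, ℤ)) * T)⁻¹
      • (((S : SL(2, ℤ)) * T)⁻¹ • x)) = x := by
    intro x
    rw [inv_smul_eq_iff, inv_smul_eq_iff, inv_smul_eq_iff, h94_U_cube_smul hneg]
  obtain ⟨w, hw⟩ := h94lr_exists_primitive_three (fun x : X => ((S : SL(2, ℤ)) * T)⁻¹ • x) hτ
    (κ (S * T)) (fun x => h94lr_U_rel_of_neg_one hκ h1 x) (fun x hx => by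
      apply h3
      have h := h94lr_U_rel_of_neg_one hκ h1 x
      have hx' : ((S : SL(2, ℤ)) * T)⁻¹ • x = x := hx
      rw [hx', hx'] at h
      exact h)
  refine ⟨w, fun y => ?_⟩
  rw [hw y]
  abel

end Normalise

/-! ### Heisenberg cochains of a pair of characters -/

section Main

variable (Γ : Subgroup SL(2, ℤ)) {A A' R : Type*} [AddCommGroup A] [AddCommGroup A']
  [AddCommGroup R] (μ : A →+ A' →+ R)

/-- **model form**: for characters `φ`, `ψ` of `Γ` there are cocycles `κ`, `κ'` on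
`X = SL(2, ℤ) ⧸ Γ` representing them, with `κ (S T) = 0`, and a cup-primitive `e` with
`e (S T) = 0`. -/
theorem h94lr_exists_heis_model (hΓ : (-1 : SL(2, ℤ)) ∈ Γ)
    (h2 : ∀ a : A, a + a = 0 → a = 0) (h3 : ∀ a : A, a + a + a = 0 → a = 0)
    (φ : Additive Γ →+ A) (ψ : Additive Γ →+ A') (hψ : ψ (Additive.ofMul ⟨-1, hΓ⟩) = 0) :
    ∃ (κ : SL(2, ℤ) → (SL(2, ℤ) ⧸ Γ) → A) (κ' : SL(2, ℤ) → (SL(2, ℤ) ⧸ Γ) → A')
      (e : SL(2, ℤ) → (SL(2, ℤ) ⧸ Γ) → R),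
      h94_IsCocycle κ ∧ h94_IsCocycle κ' ∧ h94lr_IsHeis μ κ κ' e ∧
      (∀ x, κ (-1) x = 0) ∧ (∀ x, κ' (-1) x = 0) ∧
      κ (S * T) = 0 ∧ e (S * T) = 0 ∧
      (∀ γ : Γ, κ (γ : SL(2, ℤ)) (h94lr_x0 Γ) = φ (Additive.ofMul γ)) ∧
      (∀ γ : Γ, κ' (γ : SL(2, ℤ)) (h94lr_x0 Γ) = ψ (Additive.ofMul γ)) ∧
      (∀ g x, κ' g x = h94lr_shap Γ ψ g x) := by
  have hneg := h94lr_neg_one_smul Γ hΓ
  have hφ : φ (Additive.ofMul ⟨-1, hΓ⟩) = 0 := h94lr_hom_neg_one Γ hΓ h2 φ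
  have hk := h94lr_shap_isCocycle Γ φ
  have hk' := h94lr_shap_isCocycle Γ ψ
  have hk1 := h94lr_shap_neg_one Γ hΓ φ hφ
  have hk1' := h94lr_shap_neg_one Γ hΓ ψ hψ
  obtain ⟨w, hw⟩ := h94lr_exists_unorm hneg h3 hk hk1
  -- the normalised cocycle
  let κ : SL(2, ℤ) → (SL(2, ℤ) ⧸ Γ) → A := fun g y => h94lr_shap Γ φ g y + (w (g⁻¹ • y) - w y)
  have hκ : h94_IsCocycle κ := h94lr_isCocycle_add_cob hk w
  have hκ1 : ∀ x, κ (-1) x = 0 := by
    intro x
    show h94lr_shap Γ φ (-1) x + (w ((-1 : SL(2, ℤ))⁻¹ • x) - w x) = 0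
    have : ((-1 : SL(2, ℤ)))⁻¹ • x = x := by rw [inv_smul_eq_iff, hneg]
    rw [hk1, this, sub_self, add_zero]
  have hκU : κ (S * T) = 0 := by
    funext y
    exact hw y
  have hκS := h94lr_S_rel_of_neg_one hneg hκ hκ1
  have hκ'S := h94lr_S_rel_of_neg_one hneg hk' hk1'
  -- the half of `μ (κ S) (κ' S)`
  obtain ⟨eS, heS⟩ := h94lr_exists_half (fun x : SL(2, ℤ) ⧸ Γ => (S : SL(2, ℤ)) • x)
    (fun x => by
      show (S : SL(2, ℤ)) • ((S : SL(2, ℤ)) • x) = x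
      rw [← mul_smul, ← pow_two, h94_S_sq, hneg])
    (fun y => μ (κ S y) (h94lr_shap Γ ψ S y))
    (fun x => by
      show μ (κ S ((S : SL(2, ℤ)) • x)) (h94lr_shap Γ ψ S ((S : SL(2, ℤ)) • x))
        = μ (κ S x) (h94lr_shap Γ ψ S x)
      have e1 : κ S ((S : SL(2, ℤ)) • x) = - κ S x := by
        rw [eq_neg_iff_add_eq_zero, add_comm]; exact hκS x
      have e2 : h94lr_shap Γ ψ S ((S : SL(2, ℤ)) • x) = - h94lr_shap Γ ψ S x := by
        rw [eq_neg_iff_add_eq_zero, add_comm]; exact hκ'S x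
      rw [e1, e2, map_neg, map_neg, AddMonoidHom.neg_apply, neg_neg])
    (fun x hx => by
      have hx' : (S : SL(2, ℤ)) • x = x := hx
      have e1 : κ S x = 0 := by
        apply h2
        have := hκS x
        rw [hx'] at this
        exact this
      show μ (κ S x) (h94lr_shap Γ ψ S x) = 0
      rw [e1, map_zero, AddMonoidHom.zero_apply])
  obtain ⟨e, he, _, heU⟩ := h94lr_exists_heis_normalized (μ := μ) hneg hκ hk' hκS hκ'S hκU eS heS
  refine ⟨κ, h94lr_shap Γ ψ, e, hκ, hk', he, hκ1, hk1', hκU, heU, ?_, ?_, fun _ _ => rfl⟩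
  · intro γ
    show h94lr_shap Γ φ (γ : SL(2, ℤ)) (h94lr_x0 Γ)
      + (w ((γ : SL(2, ℤ))⁻¹ • h94lr_x0 Γ) - w (h94lr_x0 Γ)) = _
    have : (γ : SL(2, ℤ))⁻¹ • h94lr_x0 Γ = h94lr_x0 Γ := by
      rw [inv_smul_eq_iff, h94lr_smul_x0 Γ γ.2]
    rw [this, sub_self, add_zero, h94lr_shap_base]
  · intro γ
    exact h94lr_shap_base Γ ψ γ

/-- **existence of Heisenberg cochains** (intrinsic form): for characters `φ`, `ψ` of a
subgroup `Γ ∋ -1` of `SL(2, ℤ)` there is `c : Γ → R` with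
`c (γ γ') = c γ + c γ' + μ (φ γ) (ψ γ')`. -/
theorem h94lr_exists_heis_hom (hΓ : (-1 : SL(2, ℤ)) ∈ Γ)
    (h2 : ∀ a : A, a + a = 0 → a = 0) (h3 : ∀ a : A, a + a + a = 0 → a = 0)
    (φ : Additive Γ →+ A) (ψ : Additive Γ →+ A') (hψ : ψ (Additive.ofMul ⟨-1, hΓ⟩) = 0) :
    ∃ c : Γ → R, ∀ γ γ' : Γ,
      c (γ * γ') = c γ + c γ' + μ (φ (Additive.ofMul γ)) (ψ (Additive.ofMul γ')) := by
  obtain ⟨κ, κ', e, _, _, he, _, _, _, _, hb, hb', _⟩ :=
    h94lr_exists_heis_model Γ μ hΓ h2 h3 φ ψ hψ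
  refine ⟨fun γ => e (γ : SL(2, ℤ)) (h94lr_x0 Γ), fun γ γ' => ?_⟩
  have h := h94lr_heis_stab he (h94lr_x0 Γ) (γ : SL(2, ℤ)) (γ' : SL(2, ℤ))
    (h94lr_smul_x0 Γ γ.2)
  rw [hb, hb'] at h
  exact h

/-- the ring-valued case. -/
theorem h94lr_exists_heis_hom_ring {R : Type*} [CommRing R] (hΓ : (-1 : SL(2, ℤ)) ∈ Γ)
    (h2 : ∀ a : R, a + a = 0 → a = 0) (h3 : ∀ a : R, a + a + a = 0 → a = 0)
    (φ ψ : Additive Γ →+ R) :
    ∃ c : Γ → R, ∀ γ γ' : Γ,
      c (γ * γ') = c γ + c γ' + φ (Additive.ofMul γ) * ψ (Additive.ofMul γ') :=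
  h94lr_exists_heis_hom Γ (AddMonoidHom.mul (R := R)) hΓ h2 h3 φ ψ (h94lr_hom_neg_one Γ hΓ h2 ψ)

end Main

end Fermat.Agent.LR.PD94
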